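import Fermat.Agent.ConsecutiveDivisors.Forms
import Fermat.Agent.ErdosKac.Mertens

/-!
# A sieve for two linked forms

For coprime `A`, `B` the `n ≤ x` with `A ∣ n`, `B ∣ n + 1` and both quotients free of the primes
`≤ z` number `≪ x / (A B) ∏ (1 - 2 / p)`, the product over the `p ≤ z` prime to `A B`.
-/

set_option autoImplicit false

noncomputable section

namespace FA.EqualDivisorsUpper

open Finset
open FA.CombinatorialSieve (sievingPrimes sievingProd primeFactors_sievingProd mem_sievingPrimes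
  squarefree_sievingProd remSum sieveProduct prime_dvd_sievingProd_iff)
open FA.ErdosKac (primesUpTo mem_primesUpTo)

/-- The product of `u + B k` and `v + A k`. -/
def pairVal (u v A B k : ℕ) : ℕ := (u + B * k) * (v + A * k)

/-- The density of its zeros. -/
def pairNu (A B : ℕ) (p : ℕ) : ℝ := if p ∣ A * B then 1 / p else 2 / p

theorem card_linear_roots {p b : ℕ} (hp : p.Prime) (hb : ¬ p ∣ b) (c : ℕ) :
    ((range p).filter fun k => p ∣ c + b * k).card = 1 := by
  have : Fact p.Prime := ⟨hp⟩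
  have hb' : (b : ZMod p) ≠ 0 := by rwa [Ne, ZMod.natCast_eq_zero_iff]
  refine card_eq_one.2 ⟨(-(c : ZMod p) * (b : ZMod p)⁻¹).val, ext fun k => ?_⟩
  rw [mem_filter, mem_range, mem_singleton, ← ZMod.natCast_eq_zero_iff, Nat.cast_add,
    Nat.cast_mul]
  constructor
  · rintro ⟨hk, h⟩
    rw [← eq_neg_of_add_eq_zero_right h, mul_right_comm, mul_inv_cancel₀ hb', one_mul,
      ZMod.val_natCast_of_lt hk]
  · rintro rfl
    refine ⟨ZMod.val_lt _, ?_⟩
    rw [ZMod.natCast_rightInverse]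
    field_simp
    ring

theorem coprime_of_linked {u v A B : ℕ} (h : B * v = A * u + 1) {p : ℕ} (hp : p.Prime) :
    ¬ (p ∣ A ∧ p ∣ B) := fun ⟨ha, hb⟩ =>
  hp.not_dvd_one ((Nat.dvd_add_right (ha.mul_right u)).1 (h ▸ hb.mul_right v))

theorem not_dvd_both {u v A B : ℕ} (h : B * v = A * u + 1) {p k : ℕ} (hp : p.Prime) :
    ¬ (p ∣ u + B * k ∧ p ∣ v + A * k) := fun ⟨h1, h2⟩ => by
  have e : B * (v + A * k) = A * (u + B * k) + 1 := by rw [mul_add, h]; ring
  exact hp.not_dvd_one ((Nat.dvd_add_right (h1.mul_left A)).1 (e ▸ h2.mul_left B))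

theorem card_pairVal_roots_prime {u v A B : ℕ} (h : B * v = A * u + 1) {p : ℕ} (hp : p.Prime) :
    (((range p).filter fun k => p ∣ pairVal u v A B k).card : ℝ) =
      if p ∣ A * B then 1 else 2 := by
  classical
  simp only [pairVal, hp.dvd_mul, filter_or]
  rw [card_union_of_disjoint (disjoint_filter.2 fun k _ h1 h2 => not_dvd_both h hp ⟨h1, h2⟩)]
  by_cases hA : p ∣ A
  · have hB : ¬ p ∣ B := fun hB => coprime_of_linked h hp ⟨hA, hB⟩
    have hv : ¬ p ∣ v := fun hv =>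
      hp.not_dvd_one ((Nat.dvd_add_right (hA.mul_right u)).1 (h ▸ hv.mul_left B))
    rw [if_pos (Or.inl hA), card_linear_roots hp hB, filter_false_of_mem
      (fun k _ hk => hv ((Nat.dvd_add_left (hA.mul_right k)).1 hk))]
    simp
  by_cases hB : p ∣ B
  · have hu : ¬ p ∣ u := fun hu =>
      hp.not_dvd_one ((Nat.dvd_add_right (hu.mul_left A)).1 (h ▸ hB.mul_right v))
    rw [if_pos (Or.inr hB), card_linear_roots hp hA, filter_false_of_mem
      (fun k _ hk => hu ((Nat.dvd_add_left (hB.mul_right k)).1 hk))]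
    simp
  · rw [if_neg (not_or.2 ⟨hA, hB⟩), card_linear_roots hp hA, card_linear_roots hp hB]
    norm_num

theorem dvd_pairVal_mod (u v A B m k : ℕ) :
    m ∣ pairVal u v A B (k % m) ↔ m ∣ pairVal u v A B k :=
  ((((Nat.mod_modEq k m).mul_left B).add_left u).mul
    (((Nat.mod_modEq k m).mul_left A).add_left v)).dvd_iff dvd_rfl

theorem prodPrimeFactors_pairNu {u v A B : ℕ} (h : B * v = A * u + 1) {d : ℕ}
    (hd : Squarefree d) :
    ArithmeticFunction.prodPrimeFactors (pairNu A B) d =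
      (((range d).filter fun k => d ∣ pairVal u v A B k).card : ℝ) / d := by
  classical
  have hp : ∀ p ∈ d.primeFactors, p.Prime := fun p h => Nat.prime_of_mem_primeFactors h
  have e : ∀ c, (if d ∣ pairVal u v A B c then (1 : ℝ) else 0) =
      ∏ p ∈ d.primeFactors, (if p ∣ pairVal u v A B c then (1 : ℝ) else 0) :=
    fun c => CombinatorialSieve.dvd_indicator hd _ (Nat.mem_divisors_self d hd.ne_zero)
  have hcard : (((range d).filter fun k => d ∣ pairVal u v A B k).card : ℝ) =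
      ∏ p ∈ d.primeFactors, if p ∣ A * B then (1 : ℝ) else 2 := by
    rw [← sum_boole, sum_congr rfl fun c _ => e c]
    conv_lhs => arg 1; rw [← Nat.prod_primeFactors_of_squarefree hd]
    rw [BoundedGaps.sum_range_prod hp (fun p c => if p ∣ pairVal u v A B c then (1 : ℝ) else 0)
      fun p _ c => by simp only [dvd_pairVal_mod]]
    exact prod_congr rfl fun p h' => by rw [sum_boole, card_pairVal_roots_prime h (hp p h')]
  rw [ArithmeticFunction.prodPrimeFactors_apply hd.ne_zero, hcard]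
  conv_rhs => arg 2; rw [← Nat.prod_primeFactors_of_squarefree hd, Nat.cast_prod]
  rw [← prod_div_distrib]
  exact prod_congr rfl fun p _ => by rw [pairNu]; split_ifs <;> rfl

theorem three_le_of_mem_sievingPrimes {Z : ℝ} {p : ℕ} (hp : p ∈ sievingPrimes Z 2) :
    p.Prime ∧ (3 : ℝ) ≤ p := by
  obtain ⟨hpp, -, h2⟩ := mem_sievingPrimes.1 hp
  have : 3 ≤ p := by
    by_contra h
    have : p = 2 := by have := hpp.two_le; omega
    exact h2 (this ▸ dvd_rfl)
  exact ⟨hpp, by exact_mod_cast this⟩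

theorem pairNu_mem {A B : ℕ} {Z : ℝ} {p : ℕ} (hp : p ∈ sievingPrimes Z 2) :
    0 < pairNu A B p ∧ pairNu A B p ≤ 2 / p ∧ pairNu A B p < 1 := by
  obtain ⟨-, h3⟩ := three_le_of_mem_sievingPrimes hp
  have hp0 : (0 : ℝ) < p := by linarith
  rw [pairNu]
  split_ifs
  · exact ⟨by positivity, div_le_div_of_nonneg_right one_le_two hp0.le,
      (div_lt_one hp0).2 (by linarith)⟩
  · exact ⟨by positivity, le_rfl, (div_lt_one hp0).2 (by linarith)⟩

theorem pairNu_dimension (A B : ℕ) (Z : ℝ) : CombinatorialSieve.DimensionBound (sievingPrimes Z 2)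
    (pairNu A B) Z 2 (Real.exp (11 * 2 + 12)) := by
  refine CombinatorialSieve.dimensionBound_of_le zero_le_two (by norm_num)
    (fun p hp => ⟨(mem_sievingPrimes.1 hp).1, (mem_sievingPrimes.1 hp).2.1⟩)
    (fun p hp => ⟨(pairNu_mem hp).1.le, (pairNu_mem hp).2.2⟩) fun p hp => ?_
  obtain ⟨h0, h2, -⟩ := pairNu_mem (A := A) (B := B) hp
  obtain ⟨-, h3⟩ := three_le_of_mem_sievingPrimes hp
  have hp0 : (0 : ℝ) < p := by linarith
  have hlt : 2 / (p : ℝ) < 1 := (div_lt_one hp0).2 (by linarith)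
  refine (div_le_div₀ (by positivity) h2 (sub_pos.2 hlt) (by linarith)).trans ?_
  have h2' : (0 : ℝ) < (p : ℝ) - 2 := by linarith
  rw [show 2 / (p : ℝ) / (1 - 2 / (p : ℝ)) = 2 / ((p : ℝ) - 2) by field_simp,
    show 2 / (p : ℝ) + 12 / (p : ℝ) ^ 2 = (2 * p + 12) / (p : ℝ) ^ 2 by field_simp,
    div_le_div_iff₀ h2' (by positivity)]
  nlinarith

/-- The sieve of `pairVal` at `k < N`. -/
def pairSieve (u v A B N : ℕ) (Z : ℝ) : BoundingSieve where
  support := (range N).image (pairVal u v A B)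
  prodPrimes := sievingProd Z 2
  prodPrimes_squarefree := squarefree_sievingProd Z 2
  weights _ := 1
  weights_nonneg _ := zero_le_one
  totalMass := N
  nu := ArithmeticFunction.prodPrimeFactors (pairNu A B)
  nu_mult := ArithmeticFunction.IsMultiplicative.prodPrimeFactors _
  nu_pos_of_prime p hp hd := by
    rw [ArithmeticFunction.prodPrimeFactors_apply hp.ne_zero, hp.primeFactors, prod_singleton]
    exact (pairNu_mem (primeFactors_sievingProd Z 2 ▸
      Nat.mem_primeFactors.2 ⟨hp, hd, (squarefree_sievingProd Z 2).ne_zero⟩)).1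
  nu_lt_one_of_prime p hp hd := by
    rw [ArithmeticFunction.prodPrimeFactors_apply hp.ne_zero, hp.primeFactors, prod_singleton]
    exact (pairNu_mem (primeFactors_sievingProd Z 2 ▸
      Nat.mem_primeFactors.2 ⟨hp, hd, (squarefree_sievingProd Z 2).ne_zero⟩)).2.2

theorem pairVal_strictMono {u v A B : ℕ} (hB : 0 < B) (hv : 0 < v) :
    StrictMono (pairVal u v A B) := fun _ _ h =>
  Nat.mul_lt_mul_of_lt_of_le (Nat.add_lt_add_left (Nat.mul_lt_mul_of_pos_left h hB) u)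
    (Nat.add_le_add_left (Nat.mul_le_mul_left A h.le) v) (Nat.add_pos_left hv _)

theorem abs_pairSieve_rem_le {u v A B N : ℕ} (hB : 0 < B) (hv : 0 < v)
    (h : B * v = A * u + 1) {Z : ℝ} {d : ℕ} (hd : d ∣ sievingProd Z 2) :
    |(pairSieve u v A B N Z).rem d| ≤ d := by
  classical
  have hsq : Squarefree d := Squarefree.squarefree_of_dvd hd (squarefree_sievingProd Z 2)
  have hm : (pairSieve u v A B N Z).multSum d =
      (((range N).filter fun k => d ∣ pairVal u v A B k).card : ℝ) := by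
    rw [BoundingSieve.multSum]
    show (∑ n ∈ (range N).image (pairVal u v A B), if d ∣ n then (1 : ℝ) else 0) = _
    rw [sum_image fun a _ b _ h => (pairVal_strictMono hB hv).injective h, sum_boole]
  rw [BoundingSieve.rem, hm]
  show |_ - ArithmeticFunction.prodPrimeFactors (pairNu A B) d * (N : ℝ)| ≤ _
  rw [prodPrimeFactors_pairNu h hsq]
  refine (ConsecutiveDivisors.abs_count_periodic_le hsq.ne_zero.bot_lt
    (dvd_pairVal_mod u v A B d) N).trans ?_
  exact_mod_cast (card_filter_le _ _).trans (card_range d).le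

theorem pairSieve_remSum_le {u v A B N : ℕ} (hB : 0 < B) (hv : 0 < v)
    (h : B * v = A * u + 1) {Z : ℝ} (hZ : 1 ≤ Z) (m : ℕ) :
    remSum (pairSieve u v A B N Z) (Z ^ m) ≤ Z ^ (2 * m) := by
  have hW : (1 : ℝ) ≤ Z ^ m := one_le_pow₀ hZ
  rw [remSum, pow_mul', sq]
  refine (sum_le_card_nsmul _ _ (Z ^ m) fun d hd =>
    (abs_pairSieve_rem_le hB hv h (Nat.dvd_of_mem_divisors (mem_filter.1 hd).1)).trans
      (mem_filter.1 hd).2.le).trans ?_
  rw [nsmul_eq_mul]
  refine mul_le_mul_of_nonneg_right (le_trans (Nat.cast_le.2 ((card_le_card (t := Icc 1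
    ⌊Z ^ m⌋₊) fun d hd => ?_).trans (Nat.card_Icc _ _).le))
      (Nat.floor_le (by linarith))) (by linarith)
  exact mem_Icc.2 ⟨Nat.pos_of_mem_divisors (mem_filter.1 hd).1,
    Nat.le_floor (mem_filter.1 hd).2.le⟩

/-- The factor of a prime in the bound of the sieve. -/
def localDensity (m p : ℕ) : ℝ := if p ∣ m then 1 else 1 - 2 / p

theorem localDensity_nonneg {p : ℕ} (hp : p.Prime) (m : ℕ) : 0 ≤ localDensity m p := by
  rw [localDensity]
  split_ifs
  · exact zero_le_one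
  · rw [sub_nonneg, div_le_one (Nat.cast_pos.2 hp.pos)]
    exact_mod_cast hp.two_le

/-- The `n ≤ x` of the sieve. -/
def roughPair (x A B z : ℕ) : Finset ℕ :=
  (Icc 1 x).filter fun n =>
    A ∣ n ∧ B ∣ n + 1 ∧ ∀ p ∈ primesUpTo z, ¬ p ∣ n / A ∧ ¬ p ∣ (n + 1) / B

theorem roughPair_eq_empty {x A B z : ℕ} (hz : 2 ≤ z) (h2 : ¬ 2 ∣ A * B) :
    roughPair x A B z = ∅ := by
  refine filter_false_of_mem fun n _ hn => ?_
  obtain ⟨hA, hB, hr⟩ := hn
  have h := hr 2 (mem_primesUpTo.2 ⟨Nat.prime_two, hz⟩)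
  rcases Nat.even_or_odd n with hn | hn
  · have hd : 2 ∣ A * (n / A) := by rw [Nat.mul_div_cancel' hA]; exact hn.two_dvd
    exact (Nat.prime_two.dvd_mul.1 hd).elim (fun h' => h2 (h'.mul_right _)) h.1
  · have hd : 2 ∣ B * ((n + 1) / B) := by
      rw [Nat.mul_div_cancel' hB]
      exact even_iff_two_dvd.1 (hn.add_odd odd_one)
    exact (Nat.prime_two.dvd_mul.1 hd).elim (fun h' => h2 (h'.mul_left _)) h.2

theorem sievingPrimes_two (z : ℕ) :
    sievingPrimes ((z : ℝ) + 1) 2 = (primesUpTo z).erase 2 := by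
  ext p
  rw [mem_sievingPrimes, mem_erase, mem_primesUpTo]
  constructor
  · rintro ⟨hp, hlt, h2⟩
    exact ⟨fun e => h2 (e ▸ dvd_rfl), hp, Nat.lt_succ_iff.1 (by exact_mod_cast hlt)⟩
  · rintro ⟨hne, hp, hle⟩
    exact ⟨hp, by exact_mod_cast Nat.lt_succ_of_le hle,
      fun h => hne ((Nat.prime_dvd_prime_iff_eq hp Nat.prime_two).1 h)⟩

/-- **The sieve bound.** -/
theorem exists_roughPair_le : ∃ C : ℝ, 0 < C ∧ ∀ x A B z : ℕ, 0 < A → 0 < B → A.Coprime B →
    2 ≤ z → z ^ 160 ≤ x → (A * B) ^ 2 ≤ x →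
    ((roughPair x A B z).card : ℝ) ≤
      C * x / ((A * B : ℕ) : ℝ) * ∏ p ∈ primesUpTo z, localDensity (A * B) p := by
  obtain ⟨K, hK⟩ : ∃ K, K = Real.exp (11 * 2 + 12) := ⟨_, rfl⟩
  have hK1 : 1 ≤ K := hK ▸ Real.one_le_exp (by norm_num)
  obtain ⟨C₁, hC₁⟩ : ∃ C₁, C₁ =
      20 * Real.exp ((19 : ℕ) : ℝ) * K ^ 10 * Real.exp (-((19 : ℕ) : ℝ)) := ⟨_, rfl⟩
  have hC₁0 : 0 ≤ C₁ := by rw [hC₁]; positivity
  have hl2 : (0 : ℝ) < Real.log 2 := Real.log_pos one_lt_two
  refine ⟨2 * (1 + C₁) + 2 ^ 40 * K / Real.log 2 ^ 2, by positivity,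
    fun x A B z hA hB hco hz hzx hAB => ?_⟩
  have hprod0 : 0 ≤ ∏ p ∈ primesUpTo z, localDensity (A * B) p :=
    prod_nonneg fun p hp => localDensity_nonneg (mem_primesUpTo.1 hp).1 _
  have hAB0 : 0 < A * B := Nat.mul_pos hA hB
  have hAB0' : (0 : ℝ) < ((A * B : ℕ) : ℝ) := Nat.cast_pos.2 hAB0
  by_cases h2 : 2 ∣ A * B
  swap
  · rw [roughPair_eq_empty hz h2, card_empty, Nat.cast_zero]
    positivity
  obtain ⟨n₀, hn₀⟩ : ∃ n₀, n₀ = (Nat.chineseRemainder hco 0 (B - 1) : ℕ) := ⟨_, rfl⟩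
  have hn₀lt : n₀ < A * B := hn₀ ▸ Nat.chineseRemainder_lt_mul hco 0 (B - 1) hA.ne' hB.ne'
  obtain ⟨hnA, hnB⟩ := (Nat.chineseRemainder hco 0 (B - 1)).2
  rw [← hn₀] at hnA hnB
  have hdA : A ∣ n₀ := Nat.modEq_zero_iff_dvd.1 hnA
  have hdB : B ∣ n₀ + 1 := by
    refine Nat.modEq_zero_iff_dvd.1 ((hnB.add_right 1).trans ?_)
    rw [Nat.sub_add_cancel hB]
    exact Nat.modEq_zero_iff_dvd.2 dvd_rfl
  obtain ⟨u, hu⟩ : ∃ u, u = n₀ / A := ⟨_, rfl⟩
  obtain ⟨v, hv⟩ : ∃ v, v = (n₀ + 1) / B := ⟨_, rfl⟩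
  have eu : A * u = n₀ := hu ▸ Nat.mul_div_cancel' hdA
  have ev : B * v = n₀ + 1 := hv ▸ Nat.mul_div_cancel' hdB
  have hlink : B * v = A * u + 1 := by rw [eu, ev]
  have hv0 : 0 < v := Nat.pos_of_mul_pos_left (a := B) (ev ▸ Nat.succ_pos _)
  obtain ⟨Z, hZ⟩ : ∃ Z : ℝ, Z = (z : ℝ) + 1 := ⟨_, rfl⟩
  have hz2 : (2 : ℝ) ≤ z := by exact_mod_cast hz
  have hZ2 : 2 ≤ Z := by rw [hZ]; linarith
  obtain ⟨N, hN⟩ : ∃ N, N = x / (A * B) + 1 := ⟨_, rfl⟩
  obtain ⟨S, hS⟩ : ∃ S, S = pairSieve u v A B N Z := ⟨_, rfl⟩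
  have hsieved : ((roughPair x A B z).card : ℝ) ≤ S.siftedSum := by
    rw [hS, BoundingSieve.siftedSum]
    show _ ≤ ∑ n ∈ (range N).image (pairVal u v A B),
      if Nat.Coprime (sievingProd Z 2) n then (1 : ℝ) else 0
    rw [sum_image fun a _ b _ h => (pairVal_strictMono hB hv0).injective h, sum_boole,
      Nat.cast_le]
    have hrep : ∀ n ∈ roughPair x A B z, n = n₀ + A * B * (n / (A * B)) := fun n hn => by
      obtain ⟨-, hA', hB', -⟩ := mem_filter.1 hn
      have h1 : n ≡ B - 1 [MOD B] := by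
        refine Nat.ModEq.add_right_cancel' 1 ((Nat.modEq_zero_iff_dvd.2 hB').trans ?_)
        rw [Nat.sub_add_cancel hB]
        exact (Nat.modEq_zero_iff_dvd.2 dvd_rfl).symm
      have h2 := hn₀ ▸ Nat.chineseRemainder_modEq_unique hco (Nat.modEq_zero_iff_dvd.2 hA') h1
      rw [Nat.ModEq, Nat.mod_eq_of_lt hn₀lt] at h2
      rw [← h2]
      exact (Nat.mod_add_div n (A * B)).symm
    refine card_le_card_of_injOn (fun n => n / (A * B)) (fun n hn => ?_) fun a ha b hb he => ?_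
    · obtain ⟨hIcc, -, -, hr⟩ := mem_filter.1 hn
      have e := hrep n hn
      obtain ⟨k, hk⟩ : ∃ k, k = n / (A * B) := ⟨_, rfl⟩
      rw [← hk] at e
      show n / (A * B) ∈ ((range N).filter fun k => _ : Finset ℕ)
      rw [← hk, mem_filter, mem_range]
      refine ⟨hN ▸ hk ▸ Nat.lt_succ_of_le (Nat.div_le_div_right (mem_Icc.1 hIcc).2),
        Nat.coprime_of_dvd fun p hp h1 h2 => ?_⟩
      have hpz : p ∈ primesUpTo z := mem_of_mem_erase (sievingPrimes_two z ▸ hZ ▸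
        primeFactors_sievingProd Z 2 ▸
          Nat.mem_primeFactors.2 ⟨hp, h1, (squarefree_sievingProd Z 2).ne_zero⟩)
      have e1 : n / A = u + B * k := Nat.div_eq_of_eq_mul_right hA (by rw [e, ← eu]; ring)
      have e2 : (n + 1) / B = v + A * k :=
        Nat.div_eq_of_eq_mul_right hB (by rw [e, mul_add, ev]; ring)
      have := hr p hpz
      rw [e1, e2] at this
      exact (hp.dvd_mul.1 h2).elim this.1 this.2
    · rw [hrep a ha, hrep b hb]
      simp only at he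
      rw [he]
  have hS2 : S.prodPrimes.primeFactors = sievingPrimes Z 2 :=
    hS ▸ primeFactors_sievingProd Z 2
  have hnu : ∀ p ∈ sievingPrimes Z 2, S.nu p = pairNu A B p := fun p hp => by
    have hpp := (three_le_of_mem_sievingPrimes hp).1
    rw [hS]
    show ArithmeticFunction.prodPrimeFactors (pairNu A B) p = _
    rw [ArithmeticFunction.prodPrimeFactors_apply hpp.ne_zero, hpp.primeFactors, prod_singleton]
  have hfl := (abs_le.1 (CombinatorialSieve.fundamental_lemma S (Z := Z) (κ := 2) (K := K)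
    (s := ((19 : ℕ) : ℝ)) (β := 19) (by rw [hS]; exact Nat.cast_nonneg N)
    (fun p hp => by rw [hS2] at hp; exact (mem_sievingPrimes.1 hp).2.1) hZ2 zero_le_two
    (by norm_num) (by norm_num) hK1 le_rfl (fun w hw hwZ => by
      rw [hS2]
      refine le_trans (le_of_eq ?_) (hK ▸ pairNu_dimension A B Z w hw hwZ)
      exact prod_congr rfl fun p hp => by rw [hnu p (mem_filter.1 hp).1]))).2
  obtain ⟨V, hV⟩ : ∃ V, V = ∏ p ∈ sievingPrimes Z 2, (1 - pairNu A B p) := ⟨_, rfl⟩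
  have hVS : sieveProduct S = V := by
    rw [sieveProduct, hS2, hV]
    exact prod_congr rfl fun p hp => by rw [hnu p hp]
  rw [← hC₁, hVS, Real.rpow_natCast, show S.totalMass = (N : ℝ) from hS ▸ rfl] at hfl
  have hrem : remSum S (Z ^ 19) ≤ Z ^ (2 * 19) :=
    hS ▸ pairSieve_remSum_le hB hv0 hlink (by linarith) 19
  have hVle : V ≤ ∏ p ∈ primesUpTo z, localDensity (A * B) p := by
    rw [← mul_prod_erase _ _ (mem_primesUpTo.2 ⟨Nat.prime_two, hz⟩), localDensity, if_pos h2,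
      one_mul, hV, hZ, sievingPrimes_two]
    refine prod_le_prod (fun p hp => ?_) fun p hp => ?_
    · exact sub_nonneg.2
        (pairNu_mem (Z := (z : ℝ) + 1) ((sievingPrimes_two z).symm ▸ hp)).2.2.le
    · rw [localDensity, pairNu]
      split_ifs
      · exact sub_le_self _ (by positivity)
      · exact le_rfl
  have hVlow : Real.log 2 ^ 2 / (K * (2 * z) ^ 2) ≤ V := by
    have h := CombinatorialSieve.inv_mul_rpow_le_prod (x := pairNu A B) (κ := 2)
      (Real.exp_pos _) hZ2 (fun p hp => (three_le_of_mem_sievingPrimes hp).1.two_le)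
      (fun p hp => (pairNu_mem hp).2.2) (pairNu_dimension A B Z)
    rw [← hV, ← hK, Real.rpow_two, div_pow, inv_mul_eq_div, div_div] at h
    refine le_trans ?_ h
    have hlZ : 0 < Real.log Z := Real.log_pos (by linarith)
    rw [mul_comm (Real.log Z ^ 2)]
    refine div_le_div_of_nonneg_left (by positivity) (by positivity) ?_
    refine mul_le_mul_of_nonneg_left (pow_le_pow_left₀ hlZ.le ?_ 2) (by linarith)
    linarith [Real.log_le_sub_one_of_pos (show 0 < Z by linarith)]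
  have hABx : A * B * z ^ 40 ≤ x := by
    refine le_of_pow_le_pow_left₀ two_ne_zero (Nat.zero_le _) ?_
    rw [mul_pow, ← pow_mul, sq x]
    exact Nat.mul_le_mul hAB
      ((Nat.pow_le_pow_right (by omega) (by norm_num : 40 * 2 ≤ 160)).trans hzx)
  have hABx' : ((A * B : ℕ) : ℝ) * (z : ℝ) ^ 40 ≤ x := by exact_mod_cast hABx
  have hz40 : (z : ℝ) ^ 40 ≤ (x : ℝ) / ((A * B : ℕ) : ℝ) := by
    rw [le_div_iff₀ hAB0', mul_comm]
    exact hABx'
  have hN2 : (N : ℝ) ≤ 2 * ((x : ℝ) / ((A * B : ℕ) : ℝ)) := by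
    rw [hN, Nat.cast_add, Nat.cast_one]
    have h1 : (1 : ℝ) ≤ (x : ℝ) / ((A * B : ℕ) : ℝ) :=
      le_trans (one_le_pow₀ (by linarith)) hz40
    linarith [Nat.cast_div_le (α := ℝ) (m := x) (n := A * B)]
  have hV0 : 0 < V := lt_of_lt_of_le (by positivity) hVlow
  have hpow : Z ^ (2 * 19) ≤ 2 ^ 40 * K / Real.log 2 ^ 2 * (z : ℝ) ^ 40 * V := by
    refine le_trans ?_ (mul_le_mul_of_nonneg_left hVlow (by positivity))
    refine (pow_le_pow_left₀ (by linarith) (show Z ≤ 2 * z by linarith) _).trans (le_of_eq ?_)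
    field_simp
    ring
  calc ((roughPair x A B z).card : ℝ) ≤ (N : ℝ) * V * (1 + C₁) + Z ^ (2 * 19) := by
        nlinarith [hsieved, hfl, hrem]
    _ ≤ 2 * ((x : ℝ) / ((A * B : ℕ) : ℝ)) * V * (1 + C₁) +
        2 ^ 40 * K / Real.log 2 ^ 2 * ((x : ℝ) / ((A * B : ℕ) : ℝ)) * V := by
        refine add_le_add (by gcongr) (hpow.trans ?_)
        gcongr
    _ ≤ _ := by
        have e : 2 * ((x : ℝ) / ((A * B : ℕ) : ℝ)) * V * (1 + C₁) +
            2 ^ 40 * K / Real.log 2 ^ 2 * ((x : ℝ) / ((A * B : ℕ) : ℝ)) * V =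
          (2 * (1 + C₁) + 2 ^ 40 * K / Real.log 2 ^ 2) * x / ((A * B : ℕ) : ℝ) * V := by ring
        rw [e]
        exact mul_le_mul_of_nonneg_left hVle (by positivity)

end FA.EqualDivisorsUpper

end
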