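import Fermat.Agent.EqualDivisorsUpper.Part
import Fermat.Agent.EqualDivisorsUpper.Sieve
import Mathlib.Algebra.Order.Field.GeomSum
import Mathlib.Analysis.Real.Pi.Bounds
import Mathlib.Analysis.SpecialFunctions.Gaussian.GaussianIntegral
import Mathlib.Analysis.SpecialFunctions.Integrals.Basic
import Mathlib.Analysis.SpecialFunctions.Trigonometric.Bounds

/-!
# Concentration of the difference of an additive function

A pair of coprime numbers made of the primes `≤ z`, with the weights of the sieve, behaves like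
independent choices at each prime, where the difference `f a - f b` moves by `±1` with probability
about `2 / p`. So no value of it has weight beyond `O (1 / √(log log z))`.
-/

set_option autoImplicit false

noncomputable section

namespace FA.EqualDivisorsUpper

open Finset
open FA.ErdosKac (primesUpTo mem_primesUpTo recipSum)
open scoped Real Complex

/-- The levels `2 ^ 2 ^ i`. -/
def level (i : ℕ) : ℕ := 2 ^ 2 ^ i

/-- The exponent of the tilt at a level. -/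
def tilt (i : ℕ) : ℝ := 1 / (4 * 2 ^ i)

theorem two_le_level (i : ℕ) : 2 ≤ level i := Nat.le_self_pow (by positivity) 2

theorem level_succ (i : ℕ) : level (i + 1) = level i ^ 2 := by
  rw [level, level, ← pow_mul, ← pow_succ]

theorem log_level (i : ℕ) : Real.log (level i : ℕ) = 2 ^ i * Real.log 2 := by
  rw [level, Nat.cast_pow, Real.log_pow]
  norm_num

theorem tilt_pos (i : ℕ) : 0 < tilt i := by rw [tilt]; positivity

theorem tilt_le (i : ℕ) : tilt i ≤ 1 / 4 := by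
  rw [tilt]
  exact div_le_div_of_nonneg_left zero_le_one (by norm_num)
    (le_mul_of_one_le_right (by norm_num) (one_le_pow₀ one_le_two))

theorem rpow_tilt_le {i p : ℕ} (hp : p ≤ level (i + 1)) : (p : ℝ) ^ tilt i ≤ 3 / 2 := by
  refine (pow_le_pow_iff_left₀ (Real.rpow_nonneg (Nat.cast_nonneg p) _) (by norm_num)
    (show 4 * 2 ^ i ≠ 0 by positivity)).1 ?_
  rw [← Real.rpow_natCast ((p : ℝ) ^ tilt i), ← Real.rpow_mul (Nat.cast_nonneg p),
    show tilt i * ((4 * 2 ^ i : ℕ) : ℝ) = 1 by rw [tilt]; push_cast; field_simp, Real.rpow_one]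
  refine (Nat.cast_le.2 hp).trans ?_
  rw [level, Nat.cast_pow, pow_succ', pow_mul, pow_mul]
  exact pow_le_pow_left₀ (by positivity) (by norm_num) _

/-- The choices at a prime. -/
def opts (E : ℕ) : Finset (Option (Bool × ℕ)) := insertNone (univ ×ˢ Icc 1 E)

/-- The exponent of a choice. -/
def expo : Option (Bool × ℕ) → ℕ
  | none => 0
  | some o => o.2

/-- The choice of a coprime pair at a prime. -/
def code (a b p : ℕ) : Option (Bool × ℕ) :=
  if p ∣ a then some (true, a.factorization p)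
  else if p ∣ b then some (false, b.factorization p) else none

/-- The change of `f a - f b` by a choice. -/
def diffAt (f : ℕ → ℤ) (p : ℕ) : Option (Bool × ℕ) → ℤ
  | none => 0
  | some (true, e) => f (p ^ e)
  | some (false, e) => -f (p ^ e)

/-- The weight of a choice. -/
def optWeight (c t : ℝ) (p : ℕ) : Option (Bool × ℕ) → ℝ
  | none => c
  | some o => ((p : ℝ) ^ (t - 1)) ^ o.2

/-- The coprime pairs up to `E` made of the primes of `P`. -/
def pairs (P : Finset ℕ) (E : ℕ) : Finset (ℕ × ℕ) :=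
  ((Icc 1 E) ×ˢ (Icc 1 E)).filter fun q =>
    q.1.Coprime q.2 ∧ q.1.primeFactors ⊆ P ∧ q.2.primeFactors ⊆ P

theorem mem_pairs {P : Finset ℕ} {E a b : ℕ} : (a, b) ∈ pairs P E ↔
    (0 < a ∧ a ≤ E) ∧ (0 < b ∧ b ≤ E) ∧ a.Coprime b ∧ a.primeFactors ⊆ P ∧ b.primeFactors ⊆ P := by
  rw [pairs, mem_filter, mem_product, mem_Icc, mem_Icc]
  exact ⟨fun h => ⟨h.1.1, h.1.2, h.2⟩, fun h => ⟨⟨h.1, h.2.1⟩, h.2.2⟩⟩

theorem code_mem_opts {P : Finset ℕ} {E : ℕ} {q : ℕ × ℕ} (hq : q ∈ pairs P E) {p : ℕ}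
    (hp : p.Prime) : code q.1 q.2 p ∈ opts E := by
  obtain ⟨⟨ha, haE⟩, ⟨hb, hbE⟩, -⟩ := mem_pairs.1 hq
  rw [code, opts]
  split_ifs with h h'
  · exact some_mem_insertNone.2 (mem_product.2 ⟨mem_univ _, mem_Icc.2
      ⟨hp.factorization_pos_of_dvd ha.ne' h, (Nat.factorization_lt p ha.ne').le.trans haE⟩⟩)
  · exact some_mem_insertNone.2 (mem_product.2 ⟨mem_univ _, mem_Icc.2
      ⟨hp.factorization_pos_of_dvd hb.ne' h', (Nat.factorization_lt p hb.ne').le.trans hbE⟩⟩)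
  · exact none_mem_insertNone

/-- The exponent in `a` of a choice. -/
def leftExp : Option (Bool × ℕ) → ℕ
  | some (true, e) => e
  | _ => 0

/-- The exponent in `b` of a choice. -/
def rightExp : Option (Bool × ℕ) → ℕ
  | some (false, e) => e
  | _ => 0

theorem exp_code {a b : ℕ} (hab : a.Coprime b) {p : ℕ} (hp : p.Prime) :
    leftExp (code a b p) = a.factorization p ∧ rightExp (code a b p) = b.factorization p := by
  rw [code]
  split_ifs with h h'
  · exact ⟨rfl, (Nat.factorization_eq_zero_of_not_dvd fun h' =>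
      hp.not_dvd_one (hab.gcd_eq_one ▸ Nat.dvd_gcd h h')).symm⟩
  · exact ⟨(Nat.factorization_eq_zero_of_not_dvd h).symm, rfl⟩
  · exact ⟨(Nat.factorization_eq_zero_of_not_dvd h).symm,
      (Nat.factorization_eq_zero_of_not_dvd h').symm⟩

/-- A sum over pairs is within the sum over all choices. -/
theorem sum_pairs_le {P : Finset ℕ} (hP : ∀ p ∈ P, p.Prime) (E : ℕ)
    {Φ : ((p : ℕ) → p ∈ P → Option (Bool × ℕ)) → ℝ} (hΦ : ∀ σ, 0 ≤ Φ σ) :
    ∑ q ∈ pairs P E, Φ (fun p _ => code q.1 q.2 p) ≤ ∑ σ ∈ P.pi (fun _ => opts E), Φ σ := by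
  classical
  rw [← sum_image (f := Φ) (g := fun (q : ℕ × ℕ) (p : ℕ) (_ : p ∈ P) => code q.1 q.2 p)
    fun q hq r hr he => ?_]
  · refine sum_le_sum_of_subset_of_nonneg (fun σ hσ => ?_) fun σ _ _ => hΦ σ
    obtain ⟨q, hq, rfl⟩ := mem_image.1 hσ
    exact mem_pi.2 fun p hp => code_mem_opts hq (hP p hp)
  · obtain ⟨⟨ha, -⟩, ⟨hb, -⟩, hab, haP, hbP⟩ := mem_pairs.1 (mem_coe.1 hq)
    obtain ⟨⟨hc, -⟩, ⟨hd, -⟩, hcd, hcP, hdP⟩ := mem_pairs.1 (mem_coe.1 hr)
    have key : ∀ p, q.1.factorization p = r.1.factorization p ∧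
        q.2.factorization p = r.2.factorization p := fun p => by
      by_cases hp : p ∈ P
      · have e : code q.1 q.2 p = code r.1 r.2 p := congrFun (congrFun he p) hp
        rw [← (exp_code hab (hP p hp)).1, ← (exp_code hab (hP p hp)).2, e,
          (exp_code hcd (hP p hp)).1, (exp_code hcd (hP p hp)).2]
        exact ⟨rfl, rfl⟩
      · have h0 : ∀ n : ℕ, n.primeFactors ⊆ P → n.factorization p = 0 := fun n hn =>
          Finsupp.notMem_support_iff.1 fun h => hp (hn (Nat.support_factorization n ▸ h))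
        rw [h0 _ haP, h0 _ hbP, h0 _ hcP, h0 _ hdP]
        exact ⟨rfl, rfl⟩
    exact Prod.ext (Nat.eq_of_factorization_eq ha.ne' hc.ne' fun p => (key p).1)
      (Nat.eq_of_factorization_eq hb.ne' hd.ne' fun p => (key p).2)

theorem sum_diffAt_code {f : ℕ → ℤ} (hf : IsAdd f) {P : Finset ℕ} (hP : ∀ p ∈ P, p.Prime)
    {E : ℕ} {q : ℕ × ℕ} (hq : q ∈ pairs P E) :
    ∑ p ∈ P, diffAt f p (code q.1 q.2 p) = f q.1 - f q.2 := by
  obtain ⟨⟨ha, -⟩, ⟨hb, -⟩, hab, haP, hbP⟩ := mem_pairs.1 hq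
  rw [hf.eq_sum hP ha haP, hf.eq_sum hP hb hbP, ← sum_sub_distrib]
  refine sum_congr rfl fun p hp => ?_
  obtain ⟨h1, h2⟩ := exp_code hab (hP p hp)
  rw [← h1, ← h2]
  rcases code q.1 q.2 p with _ | ⟨s, e⟩
  · simp [diffAt, leftExp, rightExp]
  · cases s <;> simp [diffAt, leftExp, rightExp, hf.map_one]

theorem prod_optWeight_code {P : Finset ℕ} (hP : ∀ p ∈ P, p.Prime) {E : ℕ} {q : ℕ × ℕ}
    (hq : q ∈ pairs P E) (c : ℕ → ℝ) (t : ℝ) :
    ∏ p ∈ P, optWeight (c p) t p (code q.1 q.2 p) =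
      (∏ p ∈ P, if p ∣ q.1 * q.2 then 1 else c p) * ((q.1 * q.2 : ℕ) : ℝ) ^ (t - 1) := by
  obtain ⟨⟨ha, -⟩, ⟨hb, -⟩, hab, haP, hbP⟩ := mem_pairs.1 hq
  have hsub : (q.1 * q.2).primeFactors ⊆ P := by
    rw [Nat.primeFactors_mul ha.ne' hb.ne']
    exact union_subset haP hbP
  have hexp : ∀ p ∈ P, (q.1 * q.2).factorization p = expo (code q.1 q.2 p) := fun p hp => by
    rw [Nat.factorization_mul ha.ne' hb.ne', Finsupp.add_apply, ← (exp_code hab (hP p hp)).1,
      ← (exp_code hab (hP p hp)).2]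
    rcases code q.1 q.2 p with _ | ⟨s, e⟩
    · rfl
    · cases s <;> simp [expo, leftExp, rightExp]
  have e : ((q.1 * q.2 : ℕ) : ℝ) ^ (t - 1) =
      ∏ p ∈ P, ((p : ℝ) ^ (t - 1)) ^ expo (code q.1 q.2 p) := by
    conv_lhs => rw [← part_eq_self (Nat.mul_pos ha hb) hsub]
    rw [part, Nat.cast_prod, ← Real.finsetProd_rpow _ _ fun p _ => Nat.cast_nonneg _]
    exact prod_congr rfl fun p hp => by
      rw [Nat.cast_pow, ← Real.rpow_pow_comm (Nat.cast_nonneg p), hexp p hp]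
  rw [e, ← prod_mul_distrib]
  refine prod_congr rfl fun p hp => ?_
  have hiff : p ∣ q.1 * q.2 ↔ code q.1 q.2 p ≠ none := by
    rw [(hP p hp).dvd_mul, code]
    split_ifs with h h' <;> simp [*]
  rcases hcode : code q.1 q.2 p with _ | o
  · rw [if_neg (by rw [hiff, hcode]; simp)]
    simp [optWeight, expo]
  · rw [if_pos (by rw [hiff, hcode]; simp), one_mul]
    rfl

/-- Characters of the circle. -/
theorem integral_exp_int_mul (m : ℤ) :
    ∫ θ in (-π)..π, Complex.exp ((m : ℂ) * Complex.I * (θ : ℝ)) =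
      if m = 0 then ((2 * π : ℝ) : ℂ) else 0 := by
  split_ifs with h
  · subst h
    simp
    ring
  · rw [integral_exp_mul_complex (mul_ne_zero (Int.cast_ne_zero.2 h) Complex.I_ne_zero),
      div_eq_zero_iff]
    refine Or.inl (sub_eq_zero.2 (Complex.exp_eq_exp_iff_exists_int.2 ⟨m, ?_⟩))
    push_cast
    ring

/-- **A value of a sum of independent choices.** -/
theorem sum_ite_le {κ : Type*} (P : Finset ℕ) (O : Finset κ) (ω : ℕ → κ → ℝ) (Δ : ℕ → κ → ℤ)
    (h : ℤ) :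
    ∑ σ ∈ P.pi (fun _ => O), (if ∑ p ∈ P.attach, Δ p.1 (σ p.1 p.2) = h then
        ∏ p ∈ P.attach, ω p.1 (σ p.1 p.2) else 0) ≤
      (2 * π)⁻¹ * ∫ θ in (-π)..π, ∏ p ∈ P,
        ‖∑ o ∈ O, (ω p o : ℂ) * Complex.exp (((θ * Δ p o : ℝ) : ℂ) * Complex.I)‖ := by
  classical
  obtain ⟨G, hG⟩ : ∃ G : ℝ → ℂ, G = fun θ => Complex.exp (((θ * -h : ℝ) : ℂ) * Complex.I) *
      ∏ p ∈ P, ∑ o ∈ O, (ω p o : ℂ) * Complex.exp (((θ * Δ p o : ℝ) : ℂ) * Complex.I) := ⟨_, rfl⟩
  have hexp : G = fun θ : ℝ => ∑ σ ∈ P.pi (fun _ => O),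
      ((∏ p ∈ P.attach, ω p.1 (σ p.1 p.2) : ℝ) : ℂ) *
        Complex.exp (((∑ p ∈ P.attach, Δ p.1 (σ p.1 p.2) - h : ℤ) : ℂ) * Complex.I * (θ : ℝ)) := by
    rw [hG]
    funext θ
    rw [prod_sum, mul_sum]
    refine sum_congr rfl fun σ _ => ?_
    rw [prod_mul_distrib, ← Complex.exp_sum, mul_left_comm, ← Complex.exp_add,
      Complex.ofReal_prod]
    congr 2
    push_cast
    rw [sub_mul, sub_mul, sum_mul, sum_mul, sub_eq_neg_add]
    congr 1
    · ring
    · exact sum_congr rfl fun p _ => by ring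
  have hint : ∫ θ in (-π)..π, G θ = ((2 * π * ∑ σ ∈ P.pi (fun _ => O),
      (if ∑ p ∈ P.attach, Δ p.1 (σ p.1 p.2) = h then
        ∏ p ∈ P.attach, ω p.1 (σ p.1 p.2) else 0) : ℝ) : ℂ) := by
    rw [hexp, intervalIntegral.integral_finsetSum fun σ _ =>
      (Continuous.intervalIntegrable (by fun_prop) _ _)]
    rw [mul_sum, Complex.ofReal_sum]
    refine sum_congr rfl fun σ _ => ?_
    rw [intervalIntegral.integral_const_mul, integral_exp_int_mul]
    by_cases hσ : ∑ p ∈ P.attach, Δ p.1 (σ p.1 p.2) = h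
    · rw [if_pos (sub_eq_zero.2 hσ), if_pos hσ]
      push_cast
      ring
    · rw [if_neg fun hs => hσ (sub_eq_zero.1 hs), if_neg hσ]
      push_cast
      ring
  have hnorm : ∀ θ, ‖G θ‖ = ∏ p ∈ P,
      ‖∑ o ∈ O, (ω p o : ℂ) * Complex.exp (((θ * Δ p o : ℝ) : ℂ) * Complex.I)‖ := fun θ => by
    rw [hG]
    simp only [norm_mul, norm_prod, Complex.norm_exp_ofReal_mul_I, one_mul]
  have hle := intervalIntegral.norm_integral_le_integral_norm (f := G)
    (μ := MeasureTheory.volume) (neg_le_self Real.pi_pos.le)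
  rw [hint, Complex.norm_real, Real.norm_eq_abs,
    intervalIntegral.integral_congr fun θ _ => hnorm θ] at hle
  rw [le_inv_mul_iff₀ (by positivity)]
  exact (le_abs_self _).trans hle

/-- The sum of the choices at a prime. -/
def locSum (f : ℕ → ℤ) (c t : ℝ) (p E : ℕ) (θ : ℝ) : ℝ :=
  c + 2 * ∑ e ∈ Icc 1 E, ((p : ℝ) ^ (t - 1)) ^ e * Real.cos (θ * f (p ^ e))

theorem sum_opts_eq (f : ℕ → ℤ) (c t : ℝ) (p E : ℕ) (θ : ℝ) :
    ∑ o ∈ opts E, (optWeight c t p o : ℂ) *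
      Complex.exp (((θ * diffAt f p o : ℝ) : ℂ) * Complex.I) = (locSum f c t p E θ : ℂ) := by
  rw [opts, sum_insertNone, sum_product_right, locSum]
  simp only [Fintype.sum_bool, optWeight, diffAt, Int.cast_zero, mul_zero, Complex.ofReal_zero,
    zero_mul, Complex.exp_zero, mul_one, Complex.ofReal_add, Complex.ofReal_mul, Complex.ofReal_sum,
    Complex.ofReal_cos, Int.cast_neg, mul_neg, Complex.ofReal_neg, mul_sum]
  congr 1
  refine sum_congr rfl fun e _ => ?_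
  rw [← mul_add, ← Complex.two_cos]
  push_cast
  ring

theorem abs_locSum_le {f : ℕ → ℤ} {t : ℝ} {p : ℕ} (hp : p.Prime) (h1 : f p = 1) (ht : 0 ≤ t)
    (hq : (p : ℝ) ^ t ≤ 3 / 2) {E : ℕ} (hE : 1 ≤ E) (θ : ℝ) :
    |locSum f (1 - 2 / p) t p E θ| ≤ Real.exp (-(2 * (1 - Real.cos θ) / p) +
      162 / (p : ℝ) ^ 2 + 32 * (t * (Real.log p / p))) := by
  have hp2 : (2 : ℝ) ≤ p := by exact_mod_cast hp.two_le
  have hp0 : (0 : ℝ) < p := by linarith
  obtain ⟨q, hq'⟩ : ∃ q, q = (p : ℝ) ^ t := ⟨_, rfl⟩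
  rw [← hq'] at hq
  have hq1 : 1 ≤ q := hq' ▸ Real.one_le_rpow (by linarith) ht
  have hqv : q - 1 ≤ 2 * (t * Real.log p) := by
    obtain ⟨v, hv⟩ : ∃ v, v = t * Real.log p := ⟨_, rfl⟩
    have hev : Real.exp v = q := by rw [hv, hq', Real.rpow_def_of_pos hp0, mul_comm]
    have hv0 : 0 ≤ v := hv ▸ mul_nonneg ht (Real.log_nonneg (by linarith))
    have h2 := mul_le_mul_of_nonneg_left (show 1 - v ≤ Real.exp (-v) by
      linarith [Real.add_one_le_exp (-v)]) (show (0 : ℝ) ≤ q by linarith)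
    rw [← hev, ← Real.exp_add, add_neg_cancel, Real.exp_zero, hev] at h2
    nlinarith
  have hu : (p : ℝ) ^ (t - 1) = q / p := by rw [hq', Real.rpow_sub hp0, Real.rpow_one]
  obtain ⟨u, hu'⟩ : ∃ u, u = (p : ℝ) ^ (t - 1) := ⟨_, rfl⟩
  have hu0 : 0 ≤ u := hu' ▸ Real.rpow_nonneg hp0.le _
  have hu34 : u ≤ 3 / 4 := by
    rw [hu', hu, div_le_iff₀ hp0]
    linarith
  have htail : |∑ e ∈ (Icc 1 E).erase 1, u ^ e * Real.cos (θ * f (p ^ e))| ≤
      9 / (p : ℝ) ^ 2 := by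
    refine (abs_sum_le_sum_abs _ _).trans ((sum_le_sum (g := fun e => u ^ e) fun e _ => ?_).trans
      ((sum_le_sum_of_subset_of_nonneg (t := Ico 2 (E + 1)) (fun e he => ?_)
        fun e _ _ => pow_nonneg hu0 e).trans ((geom_sum_Ico_le_of_lt_one hu0 (by linarith)).trans
          ?_)))
    · rw [abs_mul, abs_of_nonneg (pow_nonneg hu0 e)]
      exact mul_le_of_le_one_right (pow_nonneg hu0 e) (Real.abs_cos_le_one _)
    · rw [mem_erase, mem_Icc] at he
      exact mem_Ico.2 ⟨by omega, by omega⟩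
    · rw [div_le_div_iff₀ (by linarith) (by positivity)]
      calc u ^ 2 * (p : ℝ) ^ 2 = q ^ 2 := by rw [hu', hu]; field_simp
        _ ≤ (3 / 2) ^ 2 := pow_le_pow_left₀ (by linarith) hq 2
        _ ≤ 9 * (1 - u) := by linarith
  obtain ⟨y, hy⟩ : ∃ y, y = 2 * (1 - Real.cos θ) / (p : ℝ) := ⟨_, rfl⟩
  have hy0 : 0 ≤ y := hy ▸ div_nonneg (by linarith [Real.cos_le_one θ]) hp0.le
  have hy4 : y ≤ 4 / p :=
    hy ▸ div_le_div_of_nonneg_right (by linarith [Real.neg_one_le_cos θ]) hp0.le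
  have hy2 : y ≤ 2 := hy4.trans (by rw [div_le_iff₀ hp0]; linarith)
  have hexp2 : Real.exp 2 ≤ 8 := by
    rw [show (2 : ℝ) = 1 + 1 by norm_num, Real.exp_add]
    nlinarith [Real.exp_one_lt_d9, Real.exp_pos 1]
  obtain ⟨T, hT⟩ : ∃ T, T = Real.exp (-y + 18 / (p : ℝ) ^ 2) := ⟨_, rfl⟩
  have hT8 : 1 ≤ 8 * T := by
    have h1 : Real.exp (-2) ≤ T :=
      hT ▸ Real.exp_le_exp.2 (by linarith [show (0 : ℝ) ≤ 18 / (p : ℝ) ^ 2 by positivity])
    rw [Real.exp_neg, inv_le_iff_one_le_mul₀' (Real.exp_pos 2)] at h1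
    exact h1.trans (mul_le_mul_of_nonneg_right hexp2 (hT ▸ Real.exp_nonneg _))
  have hmain : |1 - y| ≤ T := by
    rcases le_or_gt y 1 with h | h
    · rw [abs_of_nonneg (by linarith)]
      calc 1 - y ≤ Real.exp (-y) := by linarith [Real.add_one_le_exp (-y)]
        _ ≤ T := hT ▸ Real.exp_le_exp.2
            (by linarith [show (0 : ℝ) ≤ 18 / (p : ℝ) ^ 2 by positivity])
    · rw [abs_le]
      have h4 : (p : ℝ) < 4 := by
        have := lt_of_lt_of_le h hy4
        rwa [lt_div_iff₀ hp0, one_mul] at this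
      have : 1 ≤ T := hT ▸ Real.one_le_exp (by
        linarith [show 4 / (p : ℝ) ≤ 18 / (p : ℝ) ^ 2 by
          rw [div_le_div_iff₀ hp0 (by positivity)]; nlinarith])
      constructor <;> linarith
  obtain ⟨ε, hε⟩ : ∃ ε, ε = 2 * (q - 1) / p + 18 / (p : ℝ) ^ 2 := ⟨_, rfl⟩
  have hε0 : 0 ≤ ε := hε ▸ add_nonneg (div_nonneg (by linarith) hp0.le) (by positivity)
  have hL : |locSum f (1 - 2 / p) t p E θ| ≤ T + ε := by
    rw [locSum, ← add_sum_erase _ _ (mem_Icc.2 ⟨le_rfl, hE⟩ : 1 ∈ Icc 1 E), ← hu', pow_one,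
      pow_one, h1, Int.cast_one, mul_one,
      show 1 - 2 / (p : ℝ) + 2 * (u * Real.cos θ +
          ∑ e ∈ (Icc 1 E).erase 1, u ^ e * Real.cos (θ * f (p ^ e))) =
        (1 - y) + (2 * (q - 1) / p) * Real.cos θ +
          2 * ∑ e ∈ (Icc 1 E).erase 1, u ^ e * Real.cos (θ * f (p ^ e)) by
        rw [hy, hu', hu]; field_simp; ring]
    refine (abs_add_three _ _ _).trans ?_
    rw [hε, ← add_assoc]
    refine add_le_add (add_le_add hmain ?_) ?_
    · rw [abs_mul]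
      refine (mul_le_of_le_one_right (abs_nonneg _) (Real.abs_cos_le_one θ)).trans (le_of_eq ?_)
      exact abs_of_nonneg (div_nonneg (by linarith) hp0.le)
    · rw [abs_mul, abs_two, show (18 : ℝ) = 2 * 9 by norm_num, mul_div_assoc]
      exact mul_le_mul_of_nonneg_left htail zero_le_two
  refine hL.trans ?_
  calc T + ε ≤ T * Real.exp (8 * ε) := by
        have h1 := mul_le_mul_of_nonneg_left (Real.add_one_le_exp (8 * ε))
          (hT ▸ Real.exp_nonneg _ : 0 ≤ T)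
        nlinarith [mul_le_mul_of_nonneg_left hT8 hε0]
    _ = Real.exp (-y + 18 / (p : ℝ) ^ 2 + 8 * ε) := by rw [hT, ← Real.exp_add]
    _ ≤ _ := by
        refine Real.exp_le_exp.2 ?_
        have h2 : 2 * (q - 1) / (p : ℝ) ≤ 4 * (t * (Real.log p / p)) := by
          rw [← mul_div_assoc, ← mul_div_assoc]
          exact div_le_div_of_nonneg_right (by linarith) hp0.le
        rw [← hy, hε]
        linarith [show (162 : ℝ) / (p : ℝ) ^ 2 =
          18 / (p : ℝ) ^ 2 + 8 * (18 / (p : ℝ) ^ 2) by ring]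

theorem exists_sum_prime_bound : ∃ C : ℝ, 0 ≤ C ∧ ∀ i : ℕ,
    (i + 1) * Real.log 2 - C ≤ ∑ p ∈ primesUpTo (level i), (p : ℝ)⁻¹ ∧
    ∑ p ∈ primesUpTo (level i), (162 / (p : ℝ) ^ 2 + 32 * (tilt i * (Real.log p / p))) ≤ C ∧
    ∑ p ∈ primesUpTo (level (i + 1)) \ primesUpTo (level i), (p : ℝ)⁻¹ ≤ C := by
  obtain ⟨C₁, hC₁⟩ := ErdosKac.exists_abs_sum_log_div_sub_le
  obtain ⟨C₂, hC₂⟩ := ErdosKac.exists_abs_recipSum_sub_le
  have hC₁0 : 0 ≤ C₁ := (abs_nonneg _).trans (hC₁ 1 le_rfl)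
  have hC₂0 : 0 ≤ C₂ := (abs_nonneg _).trans (hC₂ 2 le_rfl)
  have hl : (0 : ℝ) < Real.log 2 := Real.log_pos one_lt_two
  have hll : ∀ i, Real.log (Real.log (level i : ℕ)) = i * Real.log 2 + Real.log (Real.log 2) :=
    fun i => by rw [log_level, Real.log_mul (by positivity) hl.ne', Real.log_pow]
  refine ⟨3 * C₂ + 8 * C₁ + |Real.log (Real.log 2)| + 200, by positivity,
    fun i => ⟨?_, ?_, ?_⟩⟩
  · have h := (abs_le.1 (hC₂ _ (two_le_level i))).1
    rw [recipSum, hll] at h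
    nlinarith [neg_abs_le (Real.log (Real.log 2)), Real.log_two_lt_d9]
  · rw [sum_add_distrib]
    have h1 : ∑ p ∈ primesUpTo (level i), 162 / (p : ℝ) ^ 2 ≤ 162 := by
      simp only [div_eq_mul_inv, ← mul_sum]
      linarith [CombinatorialSieve.sum_inv_sq_primes_le (T := primesUpTo (level i))
        fun p hp => (mem_primesUpTo.1 hp).1.two_le]
    have h2 : ∑ p ∈ primesUpTo (level i), 32 * (tilt i * (Real.log p / p)) ≤
        8 * Real.log 2 + 8 * C₁ := by
      rw [← mul_sum, ← mul_sum]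
      have h := (abs_le.1 (hC₁ _ (le_trans one_le_two (two_le_level i)))).2
      rw [log_level] at h
      calc (32 : ℝ) * (tilt i * ∑ p ∈ primesUpTo (level i), Real.log p / p)
          ≤ 32 * (tilt i * (2 ^ i * Real.log 2 + C₁)) := by
            have := (tilt_pos i).le
            gcongr
            linarith
        _ = 8 * Real.log 2 + 32 * (tilt i * C₁) := by rw [tilt]; field_simp; ring
        _ ≤ _ := by nlinarith [tilt_le i, tilt_pos i]
    linarith [abs_nonneg (Real.log (Real.log 2)), Real.log_two_lt_d9]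
  · have hsub : primesUpTo (level i) ⊆ primesUpTo (level (i + 1)) := fun p hp =>
      mem_primesUpTo.2 ⟨(mem_primesUpTo.1 hp).1, (mem_primesUpTo.1 hp).2.trans
        (Nat.pow_le_pow_right two_pos (Nat.pow_le_pow_right two_pos (Nat.le_succ i)))⟩
    have h1 := (abs_le.1 (hC₂ _ (two_le_level (i + 1)))).2
    have h0 := (abs_le.1 (hC₂ _ (two_le_level i))).1
    rw [recipSum, hll] at h0 h1
    push_cast at h1
    linarith [sum_sdiff (f := fun p : ℕ => (p : ℝ)⁻¹) hsub, Real.log_two_lt_d9,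
      abs_nonneg (Real.log (Real.log 2))]

/-- **No value of `f a - f b` is frequent.** -/
theorem exists_concentration : ∃ C : ℝ, 0 < C ∧ ∀ f : ℕ → ℤ, IsAdd f →
    (∀ p : ℕ, p.Prime → f p = 1) → ∀ (i E : ℕ) (h : ℤ), 1 ≤ E →
    ∑ q ∈ pairs (primesUpTo (level i)) E, (if f q.1 - f q.2 = h then
        (∏ p ∈ primesUpTo (level i), localDensity (q.1 * q.2) p) *
          ((q.1 * q.2 : ℕ) : ℝ) ^ (tilt i - 1) else 0) ≤ C / Real.sqrt (i + 1) := by
  obtain ⟨C, hC0, hC⟩ := exists_sum_prime_bound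
  refine ⟨(2 * π)⁻¹ * Real.exp (5 * C) * Real.sqrt (5 * π), by positivity,
    fun f hf h1 i E h hE => ?_⟩
  obtain ⟨P, hPdef⟩ : ∃ P, P = primesUpTo (level i) := ⟨_, rfl⟩
  have hP : ∀ p ∈ P, p.Prime := fun p hp => (mem_primesUpTo.1 (hPdef ▸ hp)).1
  have hlev : ∀ p ∈ P, p ≤ level (i + 1) := fun p hp =>
    (mem_primesUpTo.1 (hPdef ▸ hp)).2.trans
      (Nat.pow_le_pow_right two_pos (Nat.pow_le_pow_right two_pos (Nat.le_succ i)))
  rw [← hPdef]
  obtain ⟨t, ht⟩ : ∃ t, t = tilt i := ⟨_, rfl⟩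
  rw [← ht]
  have hω : ∀ p ∈ P, ∀ o, 0 ≤ optWeight (1 - 2 / (p : ℝ)) t p o := fun p hp o => by
    cases o with
    | none =>
      rw [optWeight, sub_nonneg, div_le_one (Nat.cast_pos.2 (hP p hp).pos)]
      exact_mod_cast (hP p hp).two_le
    | some o => exact pow_nonneg (Real.rpow_nonneg (Nat.cast_nonneg p) _) _
  obtain ⟨Φ, hΦ⟩ : ∃ Φ : ((p : ℕ) → p ∈ P → Option (Bool × ℕ)) → ℝ, Φ = fun σ =>
      if ∑ p ∈ P.attach, diffAt f p.1 (σ p.1 p.2) = h then
        ∏ p ∈ P.attach, optWeight (1 - 2 / (p.1 : ℝ)) t p.1 (σ p.1 p.2) else 0 := ⟨_, rfl⟩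
  have hΦ0 : ∀ σ, 0 ≤ Φ σ := fun σ => by
    rw [hΦ]
    dsimp only
    split_ifs
    · exact prod_nonneg fun p _ => hω _ p.2 _
    · exact le_rfl
  have hle : ∑ q ∈ pairs P E, (if f q.1 - f q.2 = h then
      (∏ p ∈ P, localDensity (q.1 * q.2) p) * ((q.1 * q.2 : ℕ) : ℝ) ^ (t - 1) else 0) ≤
      ∑ σ ∈ P.pi (fun _ => opts E), Φ σ := by
    refine le_trans (le_of_eq (sum_congr rfl fun q hq => ?_)) (sum_pairs_le hP E hΦ0)
    rw [hΦ]
    dsimp only
    rw [sum_attach P fun p => diffAt f p (code q.1 q.2 p),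
      prod_attach P fun p => optWeight (1 - 2 / (p : ℝ)) t p (code q.1 q.2 p),
      sum_diffAt_code hf hP hq, prod_optWeight_code hP hq]
    simp only [localDensity]
  refine hle.trans ?_
  rw [hΦ]
  refine (sum_ite_le P (opts E) (fun p => optWeight (1 - 2 / (p : ℝ)) t p) (diffAt f) h).trans ?_
  rw [mul_assoc, mul_div_assoc]
  refine mul_le_mul_of_nonneg_left ?_ (by positivity)
  obtain ⟨a, ha⟩ : ∃ a : ℝ, a = (i + 1) / 5 := ⟨_, rfl⟩
  have ha0 : 0 < a := by rw [ha]; positivity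
  have hpt : ∀ θ ∈ Set.Icc (-π) π, ∏ p ∈ P, ‖∑ o ∈ opts E,
      ((optWeight (1 - 2 / (p : ℝ)) t p o : ℝ) : ℂ) *
        Complex.exp (((θ * diffAt f p o : ℝ) : ℂ) * Complex.I)‖ ≤
      Real.exp (5 * C) * Real.exp (-a * θ ^ 2) := fun θ hθ => by
    refine (prod_le_prod (g := fun p : ℕ => Real.exp (-(2 * (1 - Real.cos θ) / p) +
      (162 / (p : ℝ) ^ 2 + 32 * (t * (Real.log p / p))))) (fun p _ => norm_nonneg _)
      fun p hp => ?_).trans ?_
    · rw [sum_opts_eq, Complex.norm_real, Real.norm_eq_abs, ← add_assoc]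
      exact abs_locSum_le (hP p hp) (h1 p (hP p hp)) (ht ▸ (tilt_pos i).le)
        (ht ▸ rpow_tilt_le (hlev p hp)) hE θ
    rw [← Real.exp_sum, ← Real.exp_add, Real.exp_le_exp, sum_add_distrib, sum_neg_distrib]
    simp only [div_eq_mul_inv _ (_ : ℝ), mul_assoc, ← mul_sum] at *
    obtain ⟨hlo, hhi, -⟩ := hC i
    rw [← hPdef] at hlo hhi
    rw [← ht] at hhi
    have hy0 : 0 ≤ 1 - Real.cos θ := sub_nonneg.2 (Real.cos_le_one θ)
    have hy2 : 1 - Real.cos θ ≤ 2 := by linarith [Real.neg_one_le_cos θ]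
    have hcos := Real.cos_le_one_sub_mul_cos_sq (abs_le.2 hθ)
    have hkey : θ ^ 2 / 5 ≤ 2 * Real.log 2 * (1 - Real.cos θ) := by
      have h1 : θ ^ 2 / 5 ≤ 2 * Real.log 2 * (2 / π ^ 2 * θ ^ 2) := by
        rw [show 2 * Real.log 2 * (2 / π ^ 2 * θ ^ 2) = 4 * Real.log 2 / π ^ 2 * θ ^ 2 by ring,
          div_eq_inv_mul]
        refine mul_le_mul_of_nonneg_right ?_ (sq_nonneg θ)
        rw [le_div_iff₀ (by positivity)]
        nlinarith [Real.pi_lt_d2, Real.pi_pos, Real.log_two_gt_d9]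
      refine h1.trans (mul_le_mul_of_nonneg_left ?_ (by positivity))
      linarith
    nlinarith [mul_le_mul_of_nonneg_left hlo hy0, mul_le_mul_of_nonneg_right hy2 hC0,
      mul_le_mul_of_nonneg_left hkey (show (0 : ℝ) ≤ (i : ℝ) + 1 by positivity)]
  refine (intervalIntegral.integral_mono_on (neg_le_self Real.pi_pos.le)
    (Continuous.intervalIntegrable (by fun_prop) _ _)
    (Continuous.intervalIntegrable (by fun_prop) _ _) hpt).trans ?_
  rw [intervalIntegral.integral_const_mul, mul_div_assoc]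
  refine mul_le_mul_of_nonneg_left ?_ (Real.exp_pos _).le
  rw [intervalIntegral.integral_of_le (neg_le_self Real.pi_pos.le)]
  refine (MeasureTheory.setIntegral_le_integral (integrable_exp_neg_mul_sq ha0)
    (Filter.Eventually.of_forall fun θ => (Real.exp_pos _).le)).trans (le_of_eq ?_)
  rw [integral_gaussian, ha, div_div_eq_mul_div, Real.sqrt_div (by positivity),
    mul_comm π 5]

/-- The primes of a band give a bounded factor. -/
theorem exists_band_le : ∃ C : ℝ, 0 < C ∧ ∀ i E : ℕ,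
    ∑ q ∈ pairs (primesUpTo (level (i + 1)) \ primesUpTo (level i)) E,
      ((q.1 * q.2 : ℕ) : ℝ) ^ (tilt i - 1) ≤ C := by
  obtain ⟨C, hC0, hC⟩ := exists_sum_prime_bound
  refine ⟨Real.exp (12 * C), Real.exp_pos _, fun i E => ?_⟩
  obtain ⟨B, hBdef⟩ : ∃ B, B = primesUpTo (level (i + 1)) \ primesUpTo (level i) := ⟨_, rfl⟩
  have hB : ∀ p ∈ B, p.Prime ∧ p ≤ level (i + 1) := fun p hp =>
    mem_primesUpTo.1 (mem_sdiff.1 (hBdef ▸ hp)).1
  rw [← hBdef]
  have hω : ∀ (p : ℕ) (o : Option (Bool × ℕ)), 0 ≤ optWeight 1 (tilt i) p o := fun p o => by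
    cases o with
    | none => exact zero_le_one
    | some o => exact pow_nonneg (Real.rpow_nonneg (Nat.cast_nonneg p) _) _
  refine le_trans (le_of_eq (sum_congr rfl fun q hq => ?_))
    ((sum_pairs_le (fun p hp => (hB p hp).1) E
      (Φ := fun σ => ∏ p ∈ B.attach, optWeight 1 (tilt i) p.1 (σ p.1 p.2))
      fun σ => prod_nonneg fun p _ => hω _ _).trans ?_)
  · rw [prod_attach B fun p => optWeight 1 (tilt i) p (code q.1 q.2 p),
      prod_optWeight_code (fun p hp => (hB p hp).1) hq fun _ => 1]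
    simp
  rw [← prod_sum]
  refine (prod_le_prod (g := fun p : ℕ => Real.exp (12 * (p : ℝ)⁻¹))
    (fun p _ => sum_nonneg fun o _ => hω p o) fun p hp => ?_).trans ?_
  · have hp2 : (2 : ℝ) ≤ p := by exact_mod_cast (hB p hp).1.two_le
    have hu0 : 0 ≤ (p : ℝ) ^ (tilt i - 1) := Real.rpow_nonneg (by linarith) _
    have hu : (p : ℝ) ^ (tilt i - 1) ≤ 3 / 2 * (p : ℝ)⁻¹ := by
      rw [Real.rpow_sub (by linarith), Real.rpow_one, ← div_eq_mul_inv]
      exact div_le_div_of_nonneg_right (rpow_tilt_le (hB p hp).2) (by linarith)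
    have hu34 : (p : ℝ) ^ (tilt i - 1) ≤ 3 / 4 :=
      hu.trans (by rw [← div_eq_mul_inv, div_le_iff₀ (by linarith)]; linarith)
    rw [opts, sum_insertNone, sum_product_right]
    simp only [Fintype.sum_bool, optWeight, ← two_mul, ← mul_sum]
    have h := geom_sum_Ico_le_of_lt_one (m := 1) (n := E + 1) hu0 (by linarith)
    rw [Ico_add_one_right_eq_Icc, pow_one] at h
    refine le_trans ?_ (Real.add_one_le_exp _)
    have h4 : (p : ℝ) ^ (tilt i - 1) / (1 - (p : ℝ) ^ (tilt i - 1)) ≤ 6 * (p : ℝ)⁻¹ := by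
      refine (div_le_div₀ (by positivity) hu (by norm_num : (0 : ℝ) < 1 / 4)
        (by linarith)).trans (le_of_eq ?_)
      ring
    linarith
  · rw [← Real.exp_sum, Real.exp_le_exp, ← mul_sum]
    exact mul_le_mul_of_nonneg_left (hBdef ▸ (hC i).2.2) (by norm_num)

end FA.EqualDivisorsUpper

end
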