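import Fermat.Agent.EqualDivisorsUpper.Concentration

/-!
# The levels of a number and its successor

For `n ≤ x` take the first level `z` at which the parts of `n` and `n + 1` made of the primes
`≤ z` multiply to at most `√x`: the rest has `O (log x / log z)` prime factors, and either `a b` or
its product with some primes of the next band is a fixed power of `x`.
-/

set_option autoImplicit false

noncomputable section

namespace FA.EqualDivisorsUpper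

open Finset
open FA.ErdosKac (primesUpTo mem_primesUpTo)

theorem exists_dvd_between {x D m : ℕ} (hx : 1 ≤ x) (hD : x < D ^ 8) (hm : m ^ 8 ≤ x)
    (hp : ∀ p : ℕ, p.Prime → p ∣ D → p ≤ m) : ∃ d, d ∣ D ∧ x < d ^ 8 ∧ d ^ 4 ≤ x := by
  classical
  have hex : ∃ d, d ∣ D ∧ x < d ^ 8 := ⟨D, dvd_rfl, hD⟩
  obtain ⟨d, hd⟩ : ∃ d, d = Nat.find hex := ⟨_, rfl⟩
  obtain ⟨hdD, hdx⟩ : d ∣ D ∧ x < d ^ 8 := hd ▸ Nat.find_spec hex
  refine ⟨d, hdD, hdx, ?_⟩
  have hd1 : d ≠ 1 := fun h => by rw [h, one_pow] at hdx; omega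
  have hd0 : 0 < d := Nat.pos_of_ne_zero fun h => by
    rw [h, zero_pow (by norm_num : (8 : ℕ) ≠ 0)] at hdx; omega
  have hpp := Nat.minFac_prime hd1
  have hlt : d / d.minFac < d := Nat.div_lt_self hd0 hpp.one_lt
  have hle : (d / d.minFac) ^ 8 ≤ x := not_lt.1 fun h => Nat.find_min hex (hd ▸ hlt)
    ⟨(Nat.div_dvd_of_dvd (Nat.minFac_dvd d)).trans hdD, h⟩
  refine le_of_pow_le_pow_left₀ two_ne_zero (Nat.zero_le x) ?_
  rw [← pow_mul, sq, ← Nat.div_mul_cancel (Nat.minFac_dvd d), mul_pow]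
  exact Nat.mul_le_mul hle ((Nat.pow_le_pow_left
    (hp _ hpp ((Nat.minFac_dvd d).trans hdD)) _).trans hm)

theorem mem_pairs_of_dvd {S : Finset ℕ} (hS : ∀ p ∈ S, p.Prime) {n E d₁ d₂ : ℕ} (hn : 0 < n)
    (hE : n + 1 ≤ E) (h₁ : d₁ ∣ part S n) (h₂ : d₂ ∣ part S (n + 1)) :
    (d₁, d₂) ∈ pairs S E := by
  have h0₁ := Nat.pos_of_dvd_of_pos h₁ (part_pos hS n)
  have h0₂ := Nat.pos_of_dvd_of_pos h₂ (part_pos hS (n + 1))
  refine mem_pairs.2 ⟨⟨h0₁, ?_⟩, ⟨h0₂, ?_⟩, ?_, ?_, ?_⟩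
  · exact (Nat.le_of_dvd hn (h₁.trans (part_dvd hS hn))).trans ((Nat.le_succ n).trans hE)
  · exact (Nat.le_of_dvd n.succ_pos (h₂.trans (part_dvd hS n.succ_pos))).trans hE
  · exact (Nat.Coprime.coprime_dvd_left h₁ (coprime_part hS hn n.succ_pos
      (Nat.coprime_self_add_right.2 (Nat.coprime_one_right n)))).coprime_dvd_right h₂
  · exact (Nat.primeFactors_mono h₁ (part_pos hS n).ne').trans (primeFactors_part_subset hS n)
  · exact (Nat.primeFactors_mono h₂ (part_pos hS _).ne').trans (primeFactors_part_subset hS _)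

theorem not_dvd_div_mul {S : Finset ℕ} (hS : ∀ p ∈ S, p.Prime) {n d : ℕ} (hn : 0 < n)
    (hd : part S n * d ∣ n) {p : ℕ} (hp : p ∈ S) : ¬ p ∣ n / (part S n * d) := fun h => by
  refine not_dvd_div_part hS hn hp (h.trans ?_)
  rw [← Nat.div_div_eq_div_mul]
  exact Nat.div_dvd_of_dvd (Nat.dvd_div_of_mul_dvd hd)

/-- **The first level at which the parts are small.** -/
theorem exists_level {I x n : ℕ}
    (hI : level I ^ 160 ≤ x) (hI' : Nat.log 2 x < 320 * 2 ^ I) (hn : n ∈ Icc 1 x)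
    (h0 : (part (primesUpTo 2) n * part (primesUpTo 2) (n + 1)) ^ 2 ≤ x) :
    ∃ i ≤ I, ∃ a b d₁ d₂ : ℕ, a = part (primesUpTo (level i)) n ∧
      b = part (primesUpTo (level i)) (n + 1) ∧
      (a, b) ∈ pairs (primesUpTo (level i)) (x + 1) ∧
      (d₁, d₂) ∈ pairs (primesUpTo (level (i + 1)) \ primesUpTo (level i)) (x + 1) ∧
      (∑ p ∈ n.primeFactors \ primesUpTo (level i), n.factorization p ≤ 320 * 2 ^ (I - i)) ∧
      (∑ p ∈ (n + 1).primeFactors \ primesUpTo (level i), (n + 1).factorization p ≤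
        320 * 2 ^ (I - i)) ∧ (a * d₁).Coprime (b * d₂) ∧
      (a * d₁ * (b * d₂)) ^ 2 ≤ x ∧ (i = I ∨ x < (a * d₁ * (b * d₂)) ^ 8) ∧
      n ∈ roughPair x (a * d₁) (b * d₂) (level i) := by
  classical
  obtain ⟨hn1, hnx⟩ := mem_Icc.1 hn
  have hP : ∀ i, ∀ p ∈ primesUpTo (level i), p.Prime := fun i p hp => (mem_primesUpTo.1 hp).1
  obtain ⟨i, hi⟩ : ∃ i, i = Nat.findGreatest
      (fun i => (part (primesUpTo (level i)) n * part (primesUpTo (level i)) (n + 1)) ^ 2 ≤ x) I :=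
    ⟨_, rfl⟩
  obtain ⟨a, ha⟩ : ∃ a, a = part (primesUpTo (level i)) n := ⟨_, rfl⟩
  obtain ⟨b, hb'⟩ : ∃ b, b = part (primesUpTo (level i)) (n + 1) := ⟨_, rfl⟩
  have hiI : i ≤ I := hi ▸ Nat.findGreatest_le I
  have hab : (a * b) ^ 2 ≤ x := by
    rw [ha, hb', hi]
    exact Nat.findGreatest_spec
      (P := fun i => (part (primesUpTo (level i)) n * part (primesUpTo (level i)) (n + 1)) ^ 2 ≤ x)
      (Nat.zero_le I) (by simpa [level] using h0)
  have hcop : n.Coprime (n + 1) := Nat.coprime_self_add_right.2 (Nat.coprime_one_right n)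
  have hrest : ∀ m, 0 < m → m ≤ x + 1 →
      ∑ p ∈ m.primeFactors \ primesUpTo (level i), m.factorization p ≤ 320 * 2 ^ (I - i) :=
    fun m hm hmx => by
      have h1 := two_pow_sum_le (k := 2 ^ i) hm fun p hp => by
        obtain ⟨hp1, hp2⟩ := mem_sdiff.1 hp
        exact (not_le.1 fun h => hp2 (mem_primesUpTo.2 ⟨Nat.prime_of_mem_primeFactors hp1, h⟩)).le
      have h2 : x + 1 ≤ 2 ^ (320 * 2 ^ I) :=
        (Nat.lt_pow_succ_log_self one_lt_two x).trans_le (Nat.pow_le_pow_right two_pos hI')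
      have h3 := (Nat.pow_le_pow_iff_right one_lt_two).1 (h1.trans (hmx.trans h2))
      rw [← Nat.add_sub_cancel' hiI, pow_add, mul_left_comm] at h3
      exact Nat.le_of_mul_le_mul_left h3 (by positivity)
  have hr₁ := hrest n hn1 (by omega)
  have hr₂ := hrest (n + 1) n.succ_pos (by omega)
  have hone : ∀ S : Finset ℕ, ((1 : ℕ), (1 : ℕ)) ∈ pairs S (x + 1) := fun S =>
    mem_pairs.2 ⟨⟨one_pos, by omega⟩, ⟨one_pos, by omega⟩, Nat.coprime_one_left 1, by simp,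
      by simp⟩
  have habp : (a, b) ∈ pairs (primesUpTo (level i)) (x + 1) :=
    mem_pairs_of_dvd (hP i) hn1 (by omega) (dvd_of_eq ha) (dvd_of_eq hb')
  have hrough : ∀ d₁ d₂, a * d₁ ∣ n → b * d₂ ∣ n + 1 →
      n ∈ roughPair x (a * d₁) (b * d₂) (level i) ∧ (a * d₁).Coprime (b * d₂) :=
    fun d₁ d₂ h1 h2 => by
      refine ⟨mem_filter.2 ⟨hn, h1, h2, fun p hp => ⟨?_, ?_⟩⟩,
        (hcop.coprime_dvd_left h1).coprime_dvd_right h2⟩
      · rw [ha] at h1 ⊢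
        exact not_dvd_div_mul (hP i) hn1 h1 hp
      · rw [hb'] at h2 ⊢
        exact not_dvd_div_mul (hP i) n.succ_pos h2 hp
  have hda : a ∣ n := ha ▸ part_dvd (hP i) hn1
  have hdb : b ∣ n + 1 := hb' ▸ part_dvd (hP i) n.succ_pos
  refine ⟨i, hiI, ?_⟩
  rcases em (i = I ∨ x < (a * b) ^ 8 ∧ x < (a * b) ^ 4) with hbig | hsmall
  · obtain ⟨hr, hc⟩ := hrough 1 1 (by rwa [mul_one]) (by rwa [mul_one])
    rw [mul_one, mul_one] at hr hc
    refine ⟨a, b, 1, 1, ha, hb', habp, hone _, hr₁, hr₂, ?_⟩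
    rw [mul_one, mul_one]
    exact ⟨hc, hab, hbig.imp id And.left, hr⟩
  obtain ⟨hne, hsm⟩ := not_or.1 hsmall
  have hab4 : (a * b) ^ 4 ≤ x := by
    by_contra hc
    refine hsm ⟨?_, not_le.1 hc⟩
    refine (not_le.1 hc).trans_le (Nat.pow_le_pow_right ?_ (by norm_num))
    exact Nat.mul_pos (mem_pairs.1 habp).1.1 (mem_pairs.1 habp).2.1.1
  have hiI' : i < I := lt_of_le_of_ne hiI hne
  have hnext := Nat.findGreatest_is_greatest
    (P := fun i => (part (primesUpTo (level i)) n * part (primesUpTo (level i)) (n + 1)) ^ 2 ≤ x)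
    (n := I) (k := i + 1) (by rw [← hi]; exact Nat.lt_succ_self i) hiI'
  have hsub : primesUpTo (level i) ⊆ primesUpTo (level (i + 1)) := fun p hp =>
    mem_primesUpTo.2 ⟨hP i p hp, (mem_primesUpTo.1 hp).2.trans
      (Nat.pow_le_pow_right two_pos (Nat.pow_le_pow_right two_pos (Nat.le_succ i)))⟩
  obtain ⟨B, hB⟩ : ∃ B, B = primesUpTo (level (i + 1)) \ primesUpTo (level i) := ⟨_, rfl⟩
  have hBP : ∀ p ∈ B, p.Prime ∧ p ≤ level (i + 1) := fun p hp =>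
    mem_primesUpTo.1 (mem_sdiff.1 (hB ▸ hp)).1
  rw [← hB]
  obtain ⟨D₁, hD₁⟩ : ∃ D, D = part B n := ⟨_, rfl⟩
  obtain ⟨D₂, hD₂⟩ : ∃ D, D = part B (n + 1) := ⟨_, rfl⟩
  have e₁ : a * D₁ = part (primesUpTo (level (i + 1))) n := by
    rw [ha, hD₁, hB, part_mul_part_sdiff hsub]
  have e₂ : b * D₂ = part (primesUpTo (level (i + 1))) (n + 1) := by
    rw [hb', hD₂, hB, part_mul_part_sdiff hsub]
  rw [← e₁, ← e₂, not_le, show a * D₁ * (b * D₂) = a * b * (D₁ * D₂) by ring] at hnext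
  have hD : x < (D₁ * D₂) ^ 4 := by
    by_contra hc
    have h1 : ((a * b * (D₁ * D₂)) ^ 2) ^ 2 ≤ x ^ 2 := by
      rw [← pow_mul, mul_pow, sq]
      exact Nat.mul_le_mul hab4 (not_lt.1 hc)
    exact absurd ((Nat.pow_le_pow_iff_left two_ne_zero).1 h1) (not_le.2 hnext)
  have hDpos : 0 < D₁ * D₂ := Nat.mul_pos (hD₁ ▸ part_pos (fun p hp => (hBP p hp).1) n)
    (hD₂ ▸ part_pos (fun p hp => (hBP p hp).1) _)
  have hm : level (i + 1) ^ 8 ≤ x := by
    refine le_trans ?_ hI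
    rw [level, level, ← pow_mul, ← pow_mul]
    refine Nat.pow_le_pow_right two_pos ?_
    have := Nat.pow_le_pow_right two_pos (show i + 1 ≤ I by omega)
    omega
  obtain ⟨d, hdD, hd8, hd4⟩ := exists_dvd_between (le_trans hn1 hnx)
    (hD.trans_le (Nat.pow_le_pow_right hDpos (by norm_num))) hm fun p hp hpd => by
    rcases hp.dvd_mul.1 hpd with hh | hh
    · exact (hBP p (primeFactors_part_subset (fun q hq => (hBP q hq).1) n
        (hD₁ ▸ Nat.mem_primeFactors.2 ⟨hp, hh, (Nat.pos_of_mul_pos_right hDpos).ne'⟩))).2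
    · exact (hBP p (primeFactors_part_subset (fun q hq => (hBP q hq).1) (n + 1)
        (hD₂ ▸ Nat.mem_primeFactors.2 ⟨hp, hh, (Nat.pos_of_mul_pos_left hDpos).ne'⟩))).2
  have hDcop : D₁.Coprime D₂ :=
    hD₁ ▸ hD₂ ▸ coprime_part (fun p hp => (hBP p hp).1) hn1 n.succ_pos hcop
  have hdsplit : d.gcd D₁ * d.gcd D₂ = d := by
    rw [← Nat.Coprime.gcd_mul d hDcop, Nat.gcd_eq_left hdD]
  obtain ⟨hr, hc⟩ := hrough (d.gcd D₁) (d.gcd D₂)
    ((mul_dvd_mul_left a (Nat.gcd_dvd_right d D₁)).trans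
      (e₁ ▸ part_dvd (hP (i + 1)) hn1))
    ((mul_dvd_mul_left b (Nat.gcd_dvd_right d D₂)).trans
      (e₂ ▸ part_dvd (hP (i + 1)) n.succ_pos))
  refine ⟨a, b, d.gcd D₁, d.gcd D₂, ha, hb', habp,
    mem_pairs_of_dvd (fun p hp => (hBP p hp).1) hn1 (by omega)
      (hD₁ ▸ Nat.gcd_dvd_right d D₁) (hD₂ ▸ Nat.gcd_dvd_right d D₂), hr₁, hr₂, hc, ?_,
    Or.inr ?_, hr⟩
  · rw [show a * d.gcd D₁ * (b * d.gcd D₂) = a * b * (d.gcd D₁ * d.gcd D₂) by ring, hdsplit]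
    refine (Nat.pow_le_pow_iff_left two_ne_zero).1 ?_
    rw [← pow_mul, mul_pow, sq]
    exact Nat.mul_le_mul hab4 hd4
  · rw [show a * d.gcd D₁ * (b * d.gcd D₂) = a * b * (d.gcd D₁ * d.gcd D₂) by ring, hdsplit,
      mul_pow]
    exact hd8.trans_le (Nat.le_mul_of_pos_left _
      (pow_pos (Nat.mul_pos (mem_pairs.1 habp).1.1 (mem_pairs.1 habp).2.1.1) _))

theorem pow_le_rpow_tilt {i I x : ℕ} (hi : i ≤ I) (hI : level I ^ 160 ≤ x) :
    (32 : ℝ) ^ 2 ^ (I - i) ≤ (x : ℝ) ^ (tilt i / 8) := by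
  obtain ⟨j, rfl⟩ := Nat.exists_eq_add_of_le hi
  rw [Nat.add_sub_cancel_left]
  refine le_trans ?_ (Real.rpow_le_rpow (by positivity)
    (show ((2 : ℝ) ^ (160 * 2 ^ (i + j))) ≤ (x : ℝ) by
      rw [mul_comm, pow_mul]; exact_mod_cast hI) (div_nonneg (tilt_pos i).le (by norm_num)))
  rw [← Real.rpow_natCast (2 : ℝ), ← Real.rpow_mul two_pos.le,
    show ((160 * 2 ^ (i + j) : ℕ) : ℝ) * (tilt i / 8) = ((5 * 2 ^ j : ℕ) : ℝ) by
      rw [tilt, pow_add]; push_cast; field_simp; ring,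
    Real.rpow_natCast, pow_mul]
  norm_num

theorem one_le_tilt_gain {i I x m : ℕ} (hm : 1 ≤ m) (hI' : Nat.log 2 x < 320 * 2 ^ I)
    (h : i = I ∨ x < m ^ 8) :
    (1 : ℝ) ≤ 1024 * (m : ℝ) ^ tilt i / (x : ℝ) ^ (tilt i / 8) ∨ x = 0 := by
  rcases Nat.eq_zero_or_pos x with hx | hx
  · exact Or.inr hx
  refine Or.inl ?_
  rw [one_le_div (Real.rpow_pos_of_pos (Nat.cast_pos.2 hx) _)]
  have h1 : 1 ≤ (m : ℝ) ^ tilt i := Real.one_le_rpow (Nat.one_le_cast.2 hm) (tilt_pos i).le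
  rcases h with rfl | h
  · have h2 : (x : ℝ) ≤ (2 : ℝ) ^ (320 * 2 ^ i) := by
      exact_mod_cast (Nat.lt_pow_succ_log_self one_lt_two x).le.trans
        (Nat.pow_le_pow_right two_pos hI')
    refine le_trans (Real.rpow_le_rpow (Nat.cast_nonneg x) h2
      (div_nonneg (tilt_pos i).le (by norm_num))) ?_
    rw [← Real.rpow_natCast (2 : ℝ), ← Real.rpow_mul two_pos.le,
      show ((320 * 2 ^ i : ℕ) : ℝ) * (tilt i / 8) = ((10 : ℕ) : ℝ) by
        rw [tilt]; push_cast; field_simp; ring,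
      Real.rpow_natCast]
    norm_num
    linarith
  · have h2 : (x : ℝ) ≤ (m : ℝ) ^ (8 : ℕ) := by exact_mod_cast h.le
    refine le_trans (Real.rpow_le_rpow (Nat.cast_nonneg x) h2
      (div_nonneg (tilt_pos i).le (by norm_num))) ?_
    rw [← Real.rpow_natCast (m : ℝ), ← Real.rpow_mul (Nat.cast_nonneg m),
      show ((8 : ℕ) : ℝ) * (tilt i / 8) = tilt i by push_cast; ring]
    linarith

end FA.EqualDivisorsUpper

end
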