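import Fermat.Agent.EqualDivisorsUpper.Levels
import Mathlib.NumberTheory.ArithmeticFunction.Misc

/-!
# The upper bound of Erdős, Pomerance and Sárközy

For `n ≤ x` take the first level `z` at which the parts of `n` and `n + 1` made of the primes
`≤ z` multiply to at most `√x`. The rest has `O (log x / log z)` prime factors, so `f a - f b` lies
in a short window, and either `a b` or its product with the primes of the next band is a fixed
power of `x`, which makes such levels exponentially rare.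
-/

set_option autoImplicit false

noncomputable section

namespace FA.EqualDivisorsUpper

open Finset Filter
open FA.ErdosKac (primesUpTo mem_primesUpTo)
open scoped ArithmeticFunction.omega ArithmeticFunction.Omega Topology

/-- **The window at the first level at which the parts are small.** -/
theorem exists_decomposition {f : ℕ → ℤ} (hf : IsAdd f)
    (hb : ∀ p e : ℕ, p.Prime → |f (p ^ e)| ≤ e) {I x n : ℕ} {h : ℤ}
    (hI : level I ^ 160 ≤ x) (hI' : Nat.log 2 x < 320 * 2 ^ I) (hn : n ∈ Icc 1 x)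
    (he : f n = f (n + 1) + h)
    (h0 : (part (primesUpTo 2) n * part (primesUpTo 2) (n + 1)) ^ 2 ≤ x) :
    ∃ i ≤ I, ∃ a b d₁ d₂ : ℕ, (a, b) ∈ pairs (primesUpTo (level i)) (x + 1) ∧
      (d₁, d₂) ∈ pairs (primesUpTo (level (i + 1)) \ primesUpTo (level i)) (x + 1) ∧
      |f a - f b - h| ≤ ((640 * 2 ^ (I - i) : ℕ) : ℤ) ∧ (a * d₁).Coprime (b * d₂) ∧
      (a * d₁ * (b * d₂)) ^ 2 ≤ x ∧ (i = I ∨ x < (a * d₁ * (b * d₂)) ^ 8) ∧
      n ∈ roughPair x (a * d₁) (b * d₂) (level i) := by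
  obtain ⟨i, hi, a, b, d₁, d₂, ha, hb', hab, hd, h₁, h₂, hrest⟩ := exists_level hI hI' hn h0
  have hP : ∀ p ∈ primesUpTo (level i), p.Prime := fun p hp => (mem_primesUpTo.1 hp).1
  refine ⟨i, hi, a, b, d₁, d₂, hab, hd, ?_, hrest⟩
  have e1 := abs_le.1 ((hf.abs_sub_le hb hP (mem_Icc.1 hn).1).trans (Int.ofNat_le.2 h₁))
  have e2 := abs_le.1 ((hf.abs_sub_le hb hP n.succ_pos).trans (Int.ofNat_le.2 h₂))
  rw [← ha] at e1
  rw [← hb'] at e2
  push_cast at e1 e2 ⊢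
  rw [abs_le]
  constructor <;> linarith [e1.1, e1.2, e2.1, e2.2]

open Classical in
/-- The choices of `a`, `b`, `d₁`, `d₂` at a level. -/
def choices (f : ℕ → ℤ) (h : ℤ) (I x i : ℕ) : Finset ((ℕ × ℕ) × (ℕ × ℕ)) :=
  (pairs (primesUpTo (level i)) (x + 1) ×ˢ
    pairs (primesUpTo (level (i + 1)) \ primesUpTo (level i)) (x + 1)).filter fun q =>
      |f q.1.1 - f q.1.2 - h| ≤ ((640 * 2 ^ (I - i) : ℕ) : ℤ) ∧
      (q.1.1 * q.2.1).Coprime (q.1.2 * q.2.2) ∧ (q.1.1 * q.2.1 * (q.1.2 * q.2.2)) ^ 2 ≤ x ∧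
      (i = I ∨ x < (q.1.1 * q.2.1 * (q.1.2 * q.2.2)) ^ 8)

theorem gain_le {i I : ℕ} (hi : i ≤ I) :
    (2 : ℝ) ^ (I - i) * Real.sqrt (I + 1) * 2 ^ (I - i) ≤
      32 ^ 2 ^ (I - i) * Real.sqrt (i + 1) := by
  obtain ⟨j, rfl⟩ := Nat.exists_eq_add_of_le hi
  rw [Nat.add_sub_cancel_left]
  have h1 : Real.sqrt ((i + j : ℕ) + 1) ≤ Real.sqrt (i + 1) * 2 ^ j := by
    rw [show (2 : ℝ) ^ j = Real.sqrt ((2 ^ j) ^ 2) from
      (Real.sqrt_sq (by positivity)).symm, ← Real.sqrt_mul (by positivity)]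
    refine Real.sqrt_le_sqrt ?_
    have h2 : ((j : ℝ) + 1) ≤ 2 ^ j := by exact_mod_cast Nat.lt_two_pow_self
    have h3 : (1 : ℝ) ≤ 2 ^ j := one_le_pow₀ one_le_two
    push_cast
    nlinarith [Nat.cast_nonneg (α := ℝ) i, Nat.cast_nonneg (α := ℝ) j,
      mul_le_mul h2 h3 zero_le_one (by positivity)]
  have h8 : (8 : ℝ) ^ j ≤ 32 ^ 2 ^ j :=
    (pow_le_pow_left₀ (by norm_num) (by norm_num) j).trans
      (pow_le_pow_right₀ (by norm_num) Nat.lt_two_pow_self.le)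
  calc (2 : ℝ) ^ j * Real.sqrt ((i + j : ℕ) + 1) * 2 ^ j
      ≤ (2 : ℝ) ^ j * (Real.sqrt (i + 1) * 2 ^ j) * 2 ^ j := by gcongr
    _ = 8 ^ j * Real.sqrt (i + 1) := by
        rw [show (8 : ℝ) = 2 * 2 * 2 by norm_num, mul_pow, mul_pow]
        ring
    _ ≤ _ := mul_le_mul_of_nonneg_right h8 (Real.sqrt_nonneg _)

theorem card_two_part_large_le {x : ℕ} :
    ((((Icc 1 x).filter fun n =>
        x < (part (primesUpTo 2) n * part (primesUpTo 2) (n + 1)) ^ 2).card : ℕ) : ℝ) ≤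
      4 * Real.sqrt x := by
  classical
  rcases Nat.eq_zero_or_pos x with rfl | hx
  · simp
  obtain ⟨k, hk⟩ : ∃ k, k = Nat.log 4 x + 1 := ⟨_, rfl⟩
  have hkx : x < 4 ^ k := hk ▸ Nat.lt_pow_succ_log_self (by norm_num) x
  have h2 : primesUpTo 2 = {2} := by
    ext p
    rw [mem_primesUpTo, mem_singleton]
    exact ⟨fun h => le_antisymm h.2 h.1.two_le, fun h => ⟨h ▸ Nat.prime_two, h.le⟩⟩
  refine le_trans (Nat.cast_le.2 ((card_le_card (t := ((Icc 1 x).filter fun n => 2 ^ k ∣ n) ∪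
    (Icc 1 x).filter fun n => 2 ^ k ∣ n + 1) fun n hn => ?_).trans (card_union_le _ _))) ?_
  · obtain ⟨hnI, hn⟩ := mem_filter.1 hn
    rw [h2, part, part, prod_singleton, prod_singleton, ← pow_add, ← pow_mul, mul_comm,
      pow_mul] at hn
    have hle : k ≤ n.factorization 2 + (n + 1).factorization 2 := by
      rw [hk]
      exact Nat.log_lt_of_lt_pow hx.ne' hn
    rw [mem_union, mem_filter, mem_filter]
    rcases Nat.even_or_odd n with he | ho
    · rw [Nat.factorization_eq_zero_of_not_dvd (n := n + 1) fun h =>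
        Nat.not_even_iff_odd.2 (he.add_odd odd_one) (even_iff_two_dvd.2 h), add_zero] at hle
      exact Or.inl ⟨hnI, (pow_dvd_pow 2 hle).trans (Nat.ordProj_dvd n 2)⟩
    · rw [Nat.factorization_eq_zero_of_not_dvd (n := n) fun h =>
        Nat.not_even_iff_odd.2 ho (even_iff_two_dvd.2 h), zero_add] at hle
      exact Or.inr ⟨hnI, (pow_dvd_pow 2 hle).trans (Nat.ordProj_dvd (n + 1) 2)⟩
  have c1 : ((Icc 1 x).filter fun n => 2 ^ k ∣ n).card ≤ (x + 1) / 2 ^ k := by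
    rw [← Nat.Ioc_filter_dvd_card_eq_div]
    refine card_le_card fun n hn => ?_
    obtain ⟨h1, h2⟩ := mem_filter.1 hn
    exact mem_filter.2 ⟨mem_Ioc.2 ⟨(mem_Icc.1 h1).1, (mem_Icc.1 h1).2.trans (Nat.le_succ x)⟩, h2⟩
  have c2 : ((Icc 1 x).filter fun n => 2 ^ k ∣ n + 1).card ≤ (x + 1) / 2 ^ k := by
    rw [← Nat.Ioc_filter_dvd_card_eq_div]
    refine card_le_card_of_injOn (fun n => n + 1) (fun n hn => ?_) fun a _ b _ h => by
      simpa using h
    obtain ⟨h1, h2⟩ := mem_filter.1 hn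
    exact mem_filter.2 ⟨mem_Ioc.2 ⟨n.succ_pos, Nat.add_le_add_right (mem_Icc.1 h1).2 1⟩, h2⟩
  have hsq : Real.sqrt x ≤ ((2 ^ k : ℕ) : ℝ) := by
    rw [Real.sqrt_le_left (Nat.cast_nonneg _), ← Nat.cast_pow, ← pow_mul, mul_comm, pow_mul]
    exact_mod_cast hkx.le
  have hs1 : 1 ≤ Real.sqrt x := Real.one_le_sqrt.2 (Nat.one_le_cast.2 hx)
  calc ((((Icc 1 x).filter fun n => 2 ^ k ∣ n).card +
        ((Icc 1 x).filter fun n => 2 ^ k ∣ n + 1).card : ℕ) : ℝ)
      ≤ 2 * (((x + 1) / 2 ^ k : ℕ) : ℝ) := by exact_mod_cast (by omega : _ ≤ 2 * ((x + 1) / 2 ^ k))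
    _ ≤ 2 * (((x : ℝ) + 1) / Real.sqrt x) := by
        refine mul_le_mul_of_nonneg_left (Nat.cast_div_le.trans ?_) zero_le_two
        push_cast at hsq ⊢
        exact div_le_div_of_nonneg_left (by positivity) (by linarith) hsq
    _ ≤ _ := by
        rw [← mul_div_assoc, div_le_iff₀ (by linarith)]
        nlinarith [Real.mul_self_sqrt (Nat.cast_nonneg (α := ℝ) x), Nat.one_le_cast (α := ℝ).2 hx]

theorem exists_sum_level_le : ∃ C : ℝ, 0 < C ∧ ∀ f : ℕ → ℤ, IsAdd f →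
    (∀ p : ℕ, p.Prime → f p = 1) → ∀ (h : ℤ) (I x i : ℕ), i ≤ I → level I ^ 160 ≤ x →
    Nat.log 2 x < 320 * 2 ^ I →
    ∑ q ∈ choices f h I x i,
      ((roughPair x (q.1.1 * q.2.1) (q.1.2 * q.2.2) (level i)).card : ℝ) ≤
      C * x / Real.sqrt (I + 1) * (1 / 2) ^ (I - i) := by
  classical
  obtain ⟨C₁, hC₁0, hC₁⟩ := exists_roughPair_le
  obtain ⟨C₂, hC₂0, hC₂⟩ := exists_concentration
  obtain ⟨C₃, hC₃0, hC₃⟩ := exists_band_le
  refine ⟨C₁ * 1024 * 1281 * C₂ * C₃, by positivity, fun f hf h1 h I x i hi hI hI' => ?_⟩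
  obtain ⟨j, hj⟩ : ∃ j, j = I - i := ⟨_, rfl⟩
  obtain ⟨P, hPdef⟩ : ∃ P, P = primesUpTo (level i) := ⟨_, rfl⟩
  obtain ⟨B, hBdef⟩ : ∃ B, B = primesUpTo (level (i + 1)) \ primesUpTo (level i) := ⟨_, rfl⟩
  have hlI : level i ≤ level I :=
    Nat.pow_le_pow_right two_pos (Nat.pow_le_pow_right two_pos hi)
  have hzx : level i ^ 160 ≤ x := (Nat.pow_le_pow_left hlI _).trans hI
  have hx0 : 0 < x := lt_of_lt_of_le (pow_pos (by linarith [two_le_level i]) _) hzx
  have hxr : (0 : ℝ) < x := Nat.cast_pos.2 hx0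
  obtain ⟨X, hX⟩ : ∃ X, X = (x : ℝ) ^ (tilt i / 8) := ⟨_, rfl⟩
  have hX0 : 0 < X := hX ▸ Real.rpow_pos_of_pos hxr _
  have hX32 : (32 : ℝ) ^ 2 ^ j ≤ X := hX ▸ hj ▸ pow_le_rpow_tilt hi hI
  obtain ⟨w, hw⟩ : ∃ w : ℕ × ℕ → ℝ, w = fun q =>
      (∏ p ∈ P, localDensity (q.1 * q.2) p) * ((q.1 * q.2 : ℕ) : ℝ) ^ (tilt i - 1) := ⟨_, rfl⟩
  obtain ⟨v, hv⟩ : ∃ v : ℕ × ℕ → ℝ, v = fun q => ((q.1 * q.2 : ℕ) : ℝ) ^ (tilt i - 1) :=
    ⟨_, rfl⟩
  have hw0 : ∀ q, 0 ≤ w q := fun q => by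
    rw [hw]
    exact mul_nonneg (prod_nonneg fun p hp => localDensity_nonneg
      (mem_primesUpTo.1 (hPdef ▸ hp)).1 _) (Real.rpow_nonneg (Nat.cast_nonneg _) _)
  have hv0 : ∀ q, 0 ≤ v q := fun q => by rw [hv]; exact Real.rpow_nonneg (Nat.cast_nonneg _) _
  obtain ⟨Q, hQ⟩ : ∃ Q, Q = (pairs P (x + 1)).filter fun q =>
      |f q.1 - f q.2 - h| ≤ ((640 * 2 ^ j : ℕ) : ℤ) := ⟨_, rfl⟩
  have hterm : ∀ q ∈ choices f h I x i,
      ((roughPair x (q.1.1 * q.2.1) (q.1.2 * q.2.2) (level i)).card : ℝ) ≤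
        C₁ * 1024 * x / X * (w q.1 * v q.2) := by
    intro q hq
    obtain ⟨hmem, -, hco, hsq, htilt⟩ := mem_filter.1 hq
    obtain ⟨hab, hdd⟩ := mem_product.1 hmem
    obtain ⟨⟨ha, -⟩, ⟨hb, -⟩, -⟩ := mem_pairs.1 hab
    obtain ⟨⟨hc, -⟩, ⟨hd, -⟩, -, hcB, hdB⟩ := mem_pairs.1 hdd
    refine (hC₁ x _ _ (level i) (Nat.mul_pos ha hc) (Nat.mul_pos hb hd) hco (two_le_level i) hzx
      hsq).trans ?_
    have hloc : ∀ p ∈ P, localDensity (q.1.1 * q.2.1 * (q.1.2 * q.2.2)) p =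
        localDensity (q.1.1 * q.1.2) p := fun p hp => by
      have hpp := (mem_primesUpTo.1 (hPdef ▸ hp)).1
      have hnot : ∀ m, 0 < m →
          m.primeFactors ⊆ primesUpTo (level (i + 1)) \ primesUpTo (level i) → ¬ p ∣ m :=
        fun m hm hsub hd => (mem_sdiff.1 (hsub (Nat.mem_primeFactors.2 ⟨hpp, hd, hm.ne'⟩))).2
          (hPdef ▸ hp)
      simp only [localDensity, hpp.dvd_mul, hnot _ hc hcB, hnot _ hd hdB, or_false]
    rw [← hPdef, prod_congr rfl hloc]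
    obtain ⟨m, hm⟩ : ∃ m, m = q.1.1 * q.2.1 * (q.1.2 * q.2.2) := ⟨_, rfl⟩
    obtain ⟨L, hL⟩ : ∃ L, L = ∏ p ∈ P, localDensity (q.1.1 * q.1.2) p := ⟨_, rfl⟩
    have hL0 : 0 ≤ L := hL ▸ prod_nonneg fun p hp =>
      localDensity_nonneg (mem_primesUpTo.1 (hPdef ▸ hp)).1 _
    rw [← hm] at htilt ⊢
    rw [← hL]
    have hm1 : 1 ≤ m := hm ▸ Nat.mul_pos (Nat.mul_pos ha hc) (Nat.mul_pos hb hd)
    have hg := (one_le_tilt_gain hm1 hI' htilt).resolve_right hx0.ne'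
    rw [← hX] at hg
    have hm0 : (0 : ℝ) < m := Nat.cast_pos.2 hm1
    have e : w q.1 * v q.2 = L * (m : ℝ) ^ tilt i / m := by
      rw [hw, hv]
      dsimp only
      rw [← hL, mul_assoc, ← Real.mul_rpow (Nat.cast_nonneg _) (Nat.cast_nonneg _),
        ← Nat.cast_mul, show q.1.1 * q.1.2 * (q.2.1 * q.2.2) = m by rw [hm]; ring,
        Real.rpow_sub hm0, Real.rpow_one, mul_div_assoc]
    rw [e]
    have h0 : 0 ≤ C₁ * x / m * L := by positivity
    calc C₁ * x / m * L ≤ C₁ * x / m * L * (1024 * (m : ℝ) ^ tilt i / X) :=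
          le_mul_of_one_le_right h0 hg
      _ = _ := by ring
  refine (sum_le_sum hterm).trans ?_
  rw [← mul_sum]
  have hsub : choices f h I x i ⊆ Q ×ˢ pairs B (x + 1) := fun q hq => by
    obtain ⟨hmem, hwin, -⟩ := mem_filter.1 hq
    obtain ⟨hab, hdd⟩ := mem_product.1 hmem
    rw [hQ, hBdef, mem_product, mem_filter, hPdef, hj]
    exact ⟨⟨hab, hwin⟩, hdd⟩
  have hsum : ∑ q ∈ choices f h I x i, w q.1 * v q.2 ≤
      (1281 * 2 ^ j * C₂ / Real.sqrt (i + 1)) * C₃ := by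
    refine (sum_le_sum_of_subset_of_nonneg hsub fun q _ _ =>
      mul_nonneg (hw0 _) (hv0 _)).trans ?_
    rw [sum_product, ← sum_mul_sum]
    refine mul_le_mul ?_ (hBdef ▸ hv ▸ hC₃ i (x + 1)) (sum_nonneg fun q _ => hv0 q)
      (by positivity)
    obtain ⟨W, hW⟩ : ∃ W : ℤ, W = ((640 * 2 ^ j : ℕ) : ℤ) := ⟨_, rfl⟩
    rw [hQ, ← hW, ← sum_fiberwise_of_maps_to (g := fun q : ℕ × ℕ => f q.1 - f q.2)
      (t := Icc (h - W) (h + W)) fun q hq => by
        rw [mem_filter, abs_le] at hq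
        exact mem_Icc.2 ⟨by linarith [hq.2.1], by linarith [hq.2.2]⟩]
    refine (sum_le_card_nsmul _ _ (C₂ / Real.sqrt (i + 1)) fun z _ => ?_).trans ?_
    · refine le_trans ?_ (hPdef ▸ hC₂ f hf h1 i (x + 1) z (Nat.le_add_left 1 x))
      rw [filter_filter, sum_filter]
      refine sum_le_sum fun q _ => ?_
      rw [hw]
      dsimp only
      split_ifs with h2 h3 h3
      · rw [hPdef]
      · exact absurd h2.2 h3
      · have := hw0 q
        rw [hw] at this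
        exact this
      · exact le_rfl
    · rw [nsmul_eq_mul, Int.card_Icc, show h + W + 1 - (h - W) = 2 * W + 1 by ring, hW,
        mul_div_assoc]
      refine mul_le_mul_of_nonneg_right ?_ (by positivity)
      rw [show (2 * ((640 * 2 ^ j : ℕ) : ℤ) + 1).toNat = 1280 * 2 ^ j + 1 by omega]
      push_cast
      linarith [one_le_pow₀ (M₀ := ℝ) (a := 2) (n := j) one_le_two]
  refine (mul_le_mul_of_nonneg_left hsum (by positivity)).trans ?_
  have hg := gain_le hi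
  rw [← hj] at hg ⊢
  rw [one_div, inv_pow]
  have hsI : 0 < Real.sqrt ((I : ℝ) + 1) := Real.sqrt_pos.2 (by positivity)
  have hsi : 0 < Real.sqrt ((i : ℝ) + 1) := Real.sqrt_pos.2 (by positivity)
  have key : (2 : ℝ) ^ j / (X * Real.sqrt (i + 1)) ≤ (Real.sqrt (I + 1) * 2 ^ j)⁻¹ := by
    rw [inv_eq_one_div, div_le_div_iff₀ (by positivity) (by positivity), one_mul, ← mul_assoc]
    exact hg.trans (mul_le_mul_of_nonneg_right hX32 hsi.le)
  calc C₁ * 1024 * x / X * (1281 * 2 ^ j * C₂ / Real.sqrt (i + 1) * C₃)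
      = C₁ * 1024 * x * 1281 * C₂ * C₃ * ((2 : ℝ) ^ j / (X * Real.sqrt (i + 1))) := by
        field_simp
    _ ≤ C₁ * 1024 * x * 1281 * C₂ * C₃ * (Real.sqrt (I + 1) * 2 ^ j)⁻¹ :=
        mul_le_mul_of_nonneg_left key (by positivity)
    _ = _ := by rw [mul_inv]; ring

theorem exists_card_le_sqrt_levels : ∃ C : ℝ, 0 < C ∧ ∀ f : ℕ → ℤ, IsAdd f →
    (∀ p : ℕ, p.Prime → f p = 1) → (∀ p e : ℕ, p.Prime → |f (p ^ e)| ≤ e) →
    ∀ (h : ℤ) (I x : ℕ), level I ^ 160 ≤ x → Nat.log 2 x < 320 * 2 ^ I →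
    (((Icc 1 x).filter fun n => f n = f (n + 1) + h).card : ℝ) ≤ C * x / Real.sqrt (I + 1) := by
  classical
  obtain ⟨C, hC0, hC⟩ := exists_sum_level_le
  refine ⟨4 + 2 * C, by linarith, fun f hf h1 hb h I x hI hI' => ?_⟩
  have hxI : I + 1 ≤ x := by
    refine le_trans ?_ hI
    rw [level, ← pow_mul]
    refine (Nat.lt_two_pow_self (n := I)).trans_le ((Nat.pow_le_pow_right two_pos ?_))
    exact Nat.lt_two_pow_self.le.trans (Nat.le_mul_of_pos_right _ (by norm_num))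
  have hx0 : (0 : ℝ) ≤ x := Nat.cast_nonneg x
  have hcover : (Icc 1 x).filter (fun n => f n = f (n + 1) + h) ⊆
      ((Icc 1 x).filter fun n =>
        x < (part (primesUpTo 2) n * part (primesUpTo 2) (n + 1)) ^ 2) ∪
      (range (I + 1)).biUnion fun i => (choices f h I x i).biUnion fun q =>
        roughPair x (q.1.1 * q.2.1) (q.1.2 * q.2.2) (level i) := fun n hn => by
    obtain ⟨hnI, he⟩ := mem_filter.1 hn
    rw [mem_union, mem_filter]
    refine (em _).imp (fun h => ⟨hnI, h⟩) fun h0 => ?_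
    obtain ⟨i, hi, a, b, d₁, d₂, hab, hd, hwin, hco, hsq, htilt, hr⟩ :=
      exists_decomposition hf hb hI hI' hnI he (not_lt.1 h0)
    exact mem_biUnion.2 ⟨i, mem_range.2 (Nat.lt_succ_of_le hi), mem_biUnion.2
      ⟨((a, b), (d₁, d₂)), mem_filter.2 ⟨mem_product.2 ⟨hab, hd⟩, hwin, hco, hsq, htilt⟩, hr⟩⟩
  have hgeo : ∑ i ∈ range (I + 1), ((1 / 2 : ℝ)) ^ (I - i) ≤ 2 := by
    rw [← sum_range_reflect (fun i => (1 / 2 : ℝ) ^ (I - i)) (I + 1)]
    refine (le_of_eq (sum_congr rfl fun i hi => ?_)).trans (sum_geometric_two_le (I + 1))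
    rw [mem_range] at hi
    congr 1
    omega
  have hsqrt : Real.sqrt x ≤ x / Real.sqrt (I + 1) := by
    rw [le_div_iff₀ (Real.sqrt_pos.2 (by positivity))]
    refine le_trans (mul_le_mul_of_nonneg_left (Real.sqrt_le_sqrt (y := (x : ℝ))
      (by exact_mod_cast hxI)) (Real.sqrt_nonneg _)) (le_of_eq (Real.mul_self_sqrt hx0))
  have hcard := (card_le_card hcover).trans ((card_union_le _ _).trans (Nat.add_le_add_left
    (card_biUnion_le.trans (sum_le_sum fun i _ => card_biUnion_le)) _))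
  refine (Nat.cast_le (α := ℝ).2 hcard).trans ?_
  rw [Nat.cast_add, Nat.cast_sum]
  simp only [Nat.cast_sum]
  refine (add_le_add card_two_part_large_le (sum_le_sum fun i hi =>
    hC f hf h1 h I x i (Nat.lt_succ_iff.1 (mem_range.1 hi)) hI hI')).trans ?_
  rw [← mul_sum]
  have h2 := mul_le_mul_of_nonneg_left hgeo
    (show 0 ≤ C * x / Real.sqrt (I + 1) by positivity)
  refine (add_le_add (mul_le_mul_of_nonneg_left hsqrt (by norm_num)) h2).trans (le_of_eq ?_)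
  ring

/-- **The upper bound of Erdős, Pomerance and Sárközy**, for additive functions. -/
theorem exists_card_shift_le : ∃ C : ℝ, 0 < C ∧ ∀ f : ℕ → ℤ, IsAdd f →
    (∀ p : ℕ, p.Prime → f p = 1) → (∀ p e : ℕ, p.Prime → |f (p ^ e)| ≤ e) →
    ∀ (h : ℤ) (x : ℕ), 3 ≤ x →
    (((Icc 1 x).filter fun n => f n = f (n + 1) + h).card : ℝ) ≤
      C * x / Real.sqrt (Real.log (Real.log x)) := by
  obtain ⟨C, hC0, hC⟩ := exists_card_le_sqrt_levels
  refine ⟨3 * C + 8, by linarith, fun f hf h1 hb h x hx => ?_⟩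
  have hx3 : (3 : ℝ) ≤ x := by exact_mod_cast hx
  have hlx : 1 < Real.log x := by
    rw [Real.lt_log_iff_exp_lt (by linarith)]
    exact Real.exp_one_lt_three.trans_le hx3
  have hl : 0 < Real.log (Real.log x) := Real.log_pos hlx
  have hs : 0 < Real.sqrt (Real.log (Real.log x)) := Real.sqrt_pos.2 hl
  have hM : (x : ℝ) ≤ 2 ^ (Nat.log 2 x + 1) := by
    exact_mod_cast (Nat.lt_pow_succ_log_self one_lt_two x).le
  have hlogx : ∀ K : ℕ, Nat.log 2 x + 1 ≤ 2 ^ K → Real.log (Real.log x) ≤ K := fun K hK => by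
    have h2 : Real.log x ≤ 2 ^ K := by
      refine (Real.log_le_log (by linarith) hM).trans ?_
      rw [Real.log_pow]
      refine (mul_le_of_le_one_right (Nat.cast_nonneg _)
        (by linarith [Real.log_two_lt_d9])).trans ?_
      exact_mod_cast hK
    refine (Real.log_le_log (by linarith) h2).trans ?_
    rw [Real.log_pow]
    exact mul_le_of_le_one_right (Nat.cast_nonneg K) (by linarith [Real.log_two_lt_d9])
  rcases lt_or_ge (Nat.log 2 x) 160 with hsmall | hbig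
  · have h8 : Real.sqrt (Real.log (Real.log x)) ≤ 8 := by
      rw [Real.sqrt_le_left (by norm_num)]
      exact (hlogx 8 (by norm_num; omega)).trans (by norm_num)
    rw [le_div_iff₀ hs]
    calc _ ≤ (x : ℝ) * 8 := mul_le_mul (Nat.cast_le.2 ((card_filter_le _ _).trans
          (Nat.card_Icc 1 x).le)) h8 hs.le (Nat.cast_nonneg x)
      _ ≤ _ := by nlinarith
  obtain ⟨I, hI⟩ : ∃ I, I = Nat.log 2 (Nat.log 2 x / 160) := ⟨_, rfl⟩
  have h0 : Nat.log 2 x / 160 ≠ 0 := by omega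
  have h1' : 2 ^ I ≤ Nat.log 2 x / 160 := hI ▸ Nat.pow_log_le_self 2 h0
  have h2' : Nat.log 2 x / 160 < 2 ^ (I + 1) := hI ▸ Nat.lt_pow_succ_log_self one_lt_two _
  have hI1 : level I ^ 160 ≤ x := by
    rw [level, ← pow_mul]
    exact (Nat.pow_le_pow_right two_pos (by omega : 2 ^ I * 160 ≤ Nat.log 2 x)).trans
      (Nat.pow_log_le_self 2 (by omega))
  have hI2 : Nat.log 2 x < 320 * 2 ^ I := by rw [pow_succ] at h2'; omega
  refine (hC f hf h1 hb h I x hI1 hI2).trans ?_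
  have hle : Real.sqrt (Real.log (Real.log x)) ≤ 3 * Real.sqrt (I + 1) := by
    rw [show (3 : ℝ) = Real.sqrt 9 by
      rw [show (9 : ℝ) = 3 ^ 2 by norm_num, Real.sqrt_sq (by norm_num)],
      ← Real.sqrt_mul (by norm_num)]
    refine Real.sqrt_le_sqrt ((hlogx (I + 9) (by rw [pow_add]; omega)).trans ?_)
    push_cast
    linarith [Nat.cast_nonneg (α := ℝ) I]
  rw [div_le_div_iff₀ (Real.sqrt_pos.2 (by positivity)) hs]
  refine (mul_le_mul_of_nonneg_left hle (by positivity)).trans ?_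
  nlinarith [Real.sqrt_nonneg ((I : ℝ) + 1), mul_nonneg (Nat.cast_nonneg (α := ℝ) x)
    (Real.sqrt_nonneg ((I : ℝ) + 1))]

theorem isAdd_omega : IsAdd fun n => ((ω n : ℕ) : ℤ) := fun _ _ _ _ h => by
  simp only [ArithmeticFunction.cardDistinctFactors_mul h, Nat.cast_add]

theorem isAdd_bigOmega : IsAdd fun n => ((Ω n : ℕ) : ℤ) := fun _ _ ha hb _ => by
  simp only [ArithmeticFunction.cardFactors_mul ha.ne' hb.ne', Nat.cast_add]

theorem isAdd_twoDivisors : IsAdd fun n => ((n.divisors.card.factorization 2 : ℕ) : ℤ) :=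
  fun a b ha hb h => by
    have hpos : ∀ m : ℕ, 0 < m → m.divisors.card ≠ 0 := fun m hm =>
      (card_pos.2 ⟨1, Nat.one_mem_divisors.2 hm.ne'⟩).ne'
    simp only [h.card_divisors_mul,
      Nat.factorization_mul (hpos a ha) (hpos b hb), Finsupp.add_apply, Nat.cast_add]

theorem card_divisors_pow {p : ℕ} (hp : p.Prime) (e : ℕ) : (p ^ e).divisors.card = e + 1 := by
  rw [Nat.divisors_prime_pow hp, card_map, card_range]

theorem exists_three_upper : ∃ C : ℝ, 0 < C ∧ ∀ x : ℕ, 3 ≤ x →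
    (((Icc 1 x).filter fun n => n.divisors.card = (n + 1).divisors.card).card : ℝ) ≤
      C * x / Real.sqrt (Real.log (Real.log x)) ∧
    (((Icc 1 x).filter fun n => ω n = ω (n + 1)).card : ℝ) ≤
      C * x / Real.sqrt (Real.log (Real.log x)) ∧
    (((Icc 1 x).filter fun n => Ω n = Ω (n + 1)).card : ℝ) ≤
      C * x / Real.sqrt (Real.log (Real.log x)) := by
  classical
  obtain ⟨C, hC0, hC⟩ := exists_card_shift_le
  refine ⟨C, hC0, fun x hx => ⟨?_, ?_, ?_⟩⟩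
  · refine le_trans (Nat.cast_le.2 (card_le_card fun n hn => ?_))
      (hC _ isAdd_twoDivisors (fun p hp => ?_) (fun p e hp => ?_) 0 x hx)
    · obtain ⟨h1, h2⟩ := mem_filter.1 hn
      exact mem_filter.2 ⟨h1, by simp only [h2, add_zero]⟩
    · rw [show p.divisors.card = 2 by simpa using card_divisors_pow hp 1,
        Nat.prime_two.factorization_self, Nat.cast_one]
    · rw [card_divisors_pow hp, Nat.abs_cast, Nat.cast_le]
      exact Nat.lt_succ_iff.1 (Nat.factorization_lt 2 e.succ_ne_zero)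
  · refine le_trans (Nat.cast_le.2 (card_le_card fun n hn => ?_))
      (hC _ isAdd_omega (fun p hp => ?_) (fun p e hp => ?_) 0 x hx)
    · obtain ⟨h1, h2⟩ := mem_filter.1 hn
      exact mem_filter.2 ⟨h1, by simp only [h2, add_zero]⟩
    · simp [ArithmeticFunction.cardDistinctFactors_apply_prime hp]
    · rcases Nat.eq_zero_or_pos e with rfl | he
      · simp
      · rw [ArithmeticFunction.cardDistinctFactors_apply_prime_pow hp he.ne', Nat.abs_cast,
          Nat.cast_le]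
        exact he
  · refine le_trans (Nat.cast_le.2 (card_le_card fun n hn => ?_))
      (hC _ isAdd_bigOmega (fun p hp => ?_) (fun p e hp => ?_) 0 x hx)
    · obtain ⟨h1, h2⟩ := mem_filter.1 hn
      exact mem_filter.2 ⟨h1, by simp only [h2, add_zero]⟩
    · simp [ArithmeticFunction.cardFactors_apply_prime hp]
    · rw [ArithmeticFunction.cardFactors_apply_prime_pow hp, Nat.abs_cast]

theorem tendsto_zero_of_le {u : ℕ → ℝ} {C : ℝ} (h0 : ∀ x, 0 ≤ u x)
    (h : ∀ x : ℕ, 3 ≤ x → u x ≤ C * x / Real.sqrt (Real.log (Real.log x))) :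
    Tendsto (fun x : ℕ => u x / x) atTop (𝓝 0) := by
  refine squeeze_zero' (Eventually.of_forall fun x => div_nonneg (h0 x) (Nat.cast_nonneg x))
    (eventually_atTop.2 ⟨3, fun x hx => ?_⟩)
    ((Tendsto.const_div_atTop (Real.tendsto_sqrt_atTop.comp (Real.tendsto_log_atTop.comp
      (Real.tendsto_log_atTop.comp tendsto_natCast_atTop_atTop))) C))
  simp only [Function.comp_apply]
  have hx0 : (0 : ℝ) < x := Nat.cast_pos.2 (by omega)
  rw [div_le_iff₀ hx0]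
  exact (h x hx).trans (le_of_eq (by ring))

theorem three_density_zero :
    Tendsto (fun x : ℕ => (((Icc 1 x).filter fun n =>
      n.divisors.card = (n + 1).divisors.card).card : ℝ) / x) atTop (𝓝 0) ∧
    Tendsto (fun x : ℕ => (((Icc 1 x).filter fun n => ω n = ω (n + 1)).card : ℝ) / x)
      atTop (𝓝 0) ∧
    Tendsto (fun x : ℕ => (((Icc 1 x).filter fun n => Ω n = Ω (n + 1)).card : ℝ) / x)
      atTop (𝓝 0) := by
  obtain ⟨C, -, hC⟩ := exists_three_upper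
  exact ⟨tendsto_zero_of_le (fun _ => Nat.cast_nonneg _) fun x hx => (hC x hx).1,
    tendsto_zero_of_le (fun _ => Nat.cast_nonneg _) fun x hx => (hC x hx).2.1,
    tendsto_zero_of_le (fun _ => Nat.cast_nonneg _) fun x hx => (hC x hx).2.2⟩

end FA.EqualDivisorsUpper

end
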