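import Fermat.Agent.ErdosKac.Mertens
import Mathlib.Data.Nat.Factorization.Basic

/-!
# The part of an integer made of given primes

`part S n` is the product of the powers in `n` of the primes of `S`; an additive function of `n`
is the sum of its values at these powers, and the primes outside `S` are few if they are large.
-/

set_option autoImplicit false

noncomputable section

namespace FA.EqualDivisorsUpper

open Finset
open FA.ErdosKac (primesUpTo mem_primesUpTo)

/-- The part of `n` made of the primes of `S`. -/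
def part (S : Finset ℕ) (n : ℕ) : ℕ := ∏ p ∈ S, p ^ n.factorization p

/-- `f (a b) = f a + f b` for coprime `a`, `b`. -/
def IsAdd (f : ℕ → ℤ) : Prop := ∀ a b : ℕ, 0 < a → 0 < b → a.Coprime b → f (a * b) = f a + f b

theorem IsAdd.map_one {f : ℕ → ℤ} (hf : IsAdd f) : f 1 = 0 := by
  have h := hf 1 1 one_pos one_pos (Nat.coprime_one_left 1)
  rw [mul_one] at h
  omega

theorem IsAdd.map_prod_pow {f : ℕ → ℤ} (hf : IsAdd f) {S : Finset ℕ}
    (hS : ∀ p ∈ S, p.Prime) (v : ℕ → ℕ) :
    f (∏ p ∈ S, p ^ v p) = ∑ p ∈ S, f (p ^ v p) := by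
  induction S using Finset.induction_on with
  | empty => simp [hf.map_one]
  | insert q T hq ih =>
    have hq' := hS q (mem_insert_self q T)
    have hT : ∀ p ∈ T, p.Prime := fun p hp => hS p (mem_insert_of_mem hp)
    rw [prod_insert hq, sum_insert hq, hf _ _ (pow_pos hq'.pos _)
      (prod_pos fun p hp => pow_pos (hT p hp).pos _) (Nat.Coprime.prod_right fun p hp =>
        Nat.Coprime.pow _ _ ((Nat.coprime_primes hq' (hT p hp)).2 fun h => hq (h ▸ hp))),
      ih hT]

theorem part_pos {S : Finset ℕ} (hS : ∀ p ∈ S, p.Prime) (n : ℕ) : 0 < part S n :=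
  prod_pos fun p hp => pow_pos (hS p hp).pos _

theorem part_eq_self {S : Finset ℕ} {n : ℕ} (hn : 0 < n) (h : n.primeFactors ⊆ S) :
    part S n = n := by
  refine Eq.trans (prod_subset h fun p _ hp => ?_).symm
    (Nat.prod_primeFactors_pow_factorization hn.ne').symm
  rw [Finsupp.notMem_support_iff.1 (Nat.support_factorization n ▸ hp), pow_zero]

theorem factorization_part {S : Finset ℕ} (hS : ∀ p ∈ S, p.Prime) (n p : ℕ) :
    (part S n).factorization p = if p ∈ S then n.factorization p else 0 := by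
  classical
  rw [part, Nat.factorization_prod fun q hq => (pow_pos (hS q hq).pos _).ne',
    Finsupp.finsetSum_apply, sum_congr rfl fun q hq =>
      show ((q ^ n.factorization q).factorization p) = if q = p then n.factorization q else 0 by
        rw [(hS q hq).factorization_pow, Finsupp.single_apply], sum_ite_eq']

theorem part_dvd {S : Finset ℕ} (hS : ∀ p ∈ S, p.Prime) {n : ℕ} (hn : 0 < n) :
    part S n ∣ n := by
  refine (Nat.factorization_le_iff_dvd (part_pos hS n).ne' hn.ne').1 fun p => ?_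
  rw [factorization_part hS]
  split_ifs <;> simp

theorem primeFactors_part_subset {S : Finset ℕ} (hS : ∀ p ∈ S, p.Prime) (n : ℕ) :
    (part S n).primeFactors ⊆ S := fun p hp => by
  rw [← Nat.support_factorization, Finsupp.mem_support_iff, factorization_part hS] at hp
  exact by_contra fun h => hp (if_neg h)

theorem not_dvd_div_part {S : Finset ℕ} (hS : ∀ p ∈ S, p.Prime) {n : ℕ} (hn : 0 < n)
    {p : ℕ} (hp : p ∈ S) : ¬ p ∣ n / part S n := fun h => by
  have h0 : 0 < n / part S n :=
    Nat.div_pos (Nat.le_of_dvd hn (part_dvd hS hn)) (part_pos hS n)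
  have h1 := (hS p hp).factorization_pos_of_dvd h0.ne' h
  rw [Nat.factorization_div (part_dvd hS hn), Finsupp.tsub_apply, factorization_part hS,
    if_pos hp, Nat.sub_self] at h1
  exact lt_irrefl _ h1

theorem part_mul_part_sdiff {S T : Finset ℕ} (h : S ⊆ T) (n : ℕ) :
    part S n * part (T \ S) n = part T n := by
  rw [part, part, part, mul_comm, prod_sdiff h]

theorem part_le_self {S : Finset ℕ} (hS : ∀ p ∈ S, p.Prime) {n : ℕ} (hn : 0 < n) :
    part S n ≤ n := Nat.le_of_dvd hn (part_dvd hS hn)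

theorem coprime_part {S : Finset ℕ} (hS : ∀ p ∈ S, p.Prime) {m n : ℕ} (hm : 0 < m) (hn : 0 < n)
    (h : m.Coprime n) : (part S m).Coprime (part S n) :=
  (h.coprime_dvd_left (part_dvd hS hm)).coprime_dvd_right (part_dvd hS hn)

/-- An additive function as a sum over primes. -/
theorem IsAdd.eq_sum {f : ℕ → ℤ} (hf : IsAdd f) {S : Finset ℕ} (hS : ∀ p ∈ S, p.Prime) {n : ℕ}
    (hn : 0 < n) (h : n.primeFactors ⊆ S) : f n = ∑ p ∈ S, f (p ^ n.factorization p) := by
  conv_lhs => rw [← part_eq_self hn h]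
  exact hf.map_prod_pow hS _

/-- Only the primes outside `S` count. -/
theorem IsAdd.abs_sub_le {f : ℕ → ℤ} (hf : IsAdd f)
    (hb : ∀ p e : ℕ, p.Prime → |f (p ^ e)| ≤ e) {S : Finset ℕ} (hS : ∀ p ∈ S, p.Prime) {n : ℕ}
    (hn : 0 < n) :
    |f n - f (part S n)| ≤ ((∑ p ∈ n.primeFactors \ S, n.factorization p : ℕ) : ℤ) := by
  have hU : ∀ p ∈ n.primeFactors ∪ S, p.Prime := fun p hp =>
    (mem_union.1 hp).elim Nat.prime_of_mem_primeFactors (hS p)
  have h1 : f n = ∑ p ∈ n.primeFactors ∪ S, f (p ^ n.factorization p) :=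
    hf.eq_sum hU hn subset_union_left
  have h2 : f (part S n) = ∑ p ∈ S, f (p ^ n.factorization p) := hf.map_prod_pow hS _
  rw [h1, h2, ← sum_sdiff (subset_union_right (s₁ := n.primeFactors) (s₂ := S)),
    add_sub_cancel_right, union_sdiff_right, Nat.cast_sum]
  exact (abs_sum_le_sum_abs _ _).trans
    (sum_le_sum fun p hp => hb p _ (Nat.prime_of_mem_primeFactors (mem_sdiff.1 hp).1))

/-- Large primes are few. -/
theorem two_pow_sum_le {S : Finset ℕ} {n k : ℕ} (hn : 0 < n)
    (hk : ∀ p ∈ n.primeFactors \ S, 2 ^ k ≤ p) :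
    2 ^ (k * ∑ p ∈ n.primeFactors \ S, n.factorization p) ≤ n := by
  have hpr : ∀ p ∈ n.primeFactors \ S, p.Prime := fun p hp =>
    Nat.prime_of_mem_primeFactors (mem_sdiff.1 hp).1
  refine le_trans ?_ (part_le_self hpr hn)
  rw [mul_sum, ← prod_pow_eq_pow_sum, part]
  refine prod_le_prod' fun p hp => ?_
  rw [pow_mul]
  exact Nat.pow_le_pow_left (hk p hp) _

end FA.EqualDivisorsUpper

end
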